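import Fermat.Agent.Lib.Igusa.ModPolyDelta

/-!
# P11 (E): the Euler product `∏ (1 - qⁿ)`: formal series and `q`-expansion

* formal: `eeEtaLS K = ∏ (1 - qⁿ)`, its inverse `eeEtaInvLS K`, `eeE4LS K`, as Laurent series over
  any commutative ring; `deltaLS K = q · eeEtaLS K ^ 24`, `jqModC K = E₄³ / Δ`;
* analytic: `eeP z = ∏ (1 - e^{2πi n z})` is nice (holomorphic, `1`-periodic, bounded at `i∞`)
  with `q`-expansion the formal Euler product `etaProd` (deduced from the `q`-expansion of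
  `Δ = q · P²⁴` by extracting the `24`-th root with constant term `1`).
-/

set_option autoImplicit false

open HahnSeries ModularCurve UpperHalfPlane ModularForm Filter Topology
open Fermat.Agent.ES Fermat.Agent.S24Lib Fermat.Agent.Igusa
open scoped MatrixGroups Manifold Real

namespace Fermat.Agent.Eis

local notation "Δ" => ModularForm.discriminant

/-! ### Formal series -/

section Formal

variable (K : Type*) [CommRing K]

/-- the inverse of the formal Euler product -/
noncomputable def eeEtaProdInv : PowerSeries ℤ := etaProd.invOfUnit 1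

theorem etaProd_mul_eeEtaProdInv : etaProd * eeEtaProdInv = 1 :=
  PowerSeries.mul_invOfUnit _ _ (by rw [constantCoeff_etaProd]; rfl)

/-- the formal Euler product `∏ (1 - qⁿ)` -/
noncomputable def eeEtaLS : LaurentSeries K :=
  HahnSeries.ofPowerSeries ℤ K (etaProd.map (Int.castRingHom K))

/-- the formal `∏ (1 - qⁿ)⁻¹` -/
noncomputable def eeEtaInvLS : LaurentSeries K :=
  HahnSeries.ofPowerSeries ℤ K (eeEtaProdInv.map (Int.castRingHom K))

/-- the formal `E₄` -/
noncomputable def eeE4LS : LaurentSeries K :=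
  HahnSeries.ofPowerSeries ℤ K (eisenstein4.map (Int.castRingHom K))

theorem eeEtaLS_mul_eeEtaInvLS : eeEtaLS K * eeEtaInvLS K = 1 := by
  rw [eeEtaLS, eeEtaInvLS, ← map_mul, ← map_mul, etaProd_mul_eeEtaProdInv, map_one, map_one]

theorem eeEtaInvLS_mul_eeEtaLS : eeEtaInvLS K * eeEtaLS K = 1 := by
  rw [mul_comm, eeEtaLS_mul_eeEtaInvLS]

theorem deltaLS_eq_eeEtaLS : deltaLS K = HahnSeries.single (1 : ℤ) (1 : K) * eeEtaLS K ^ 24 := by
  rw [deltaLS, eeEtaLS, dedekindEtaUnit, map_pow, map_pow]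

theorem deltaInvLS_eq_eeEtaInvLS :
    deltaInvLS K = HahnSeries.single (-1 : ℤ) (1 : K) * eeEtaInvLS K ^ 24 := by
  have h1 : deltaLS K * (HahnSeries.single (-1 : ℤ) (1 : K) * eeEtaInvLS K ^ 24) = 1 := by
    rw [deltaLS_eq_eeEtaLS]
    have e2 : HahnSeries.single (1 : ℤ) (1 : K) * HahnSeries.single (-1 : ℤ) (1 : K) = 1 := by
      rw [HahnSeries.single_mul_single]
      simp
    calc HahnSeries.single (1 : ℤ) (1 : K) * eeEtaLS K ^ 24 *
          (HahnSeries.single (-1 : ℤ) (1 : K) * eeEtaInvLS K ^ 24)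
        = (HahnSeries.single (1 : ℤ) (1 : K) * HahnSeries.single (-1 : ℤ) (1 : K)) *
          (eeEtaLS K * eeEtaInvLS K) ^ 24 := by rw [mul_pow]; ring
      _ = 1 := by rw [e2, eeEtaLS_mul_eeEtaInvLS, one_pow, one_mul]
  calc deltaInvLS K = deltaInvLS K * (deltaLS K *
        (HahnSeries.single (-1 : ℤ) (1 : K) * eeEtaInvLS K ^ 24)) := by rw [h1, mul_one]
    _ = (deltaInvLS K * deltaLS K) *
        (HahnSeries.single (-1 : ℤ) (1 : K) * eeEtaInvLS K ^ 24) := by ring
    _ = _ := by rw [deltaInvLS_mul_deltaLS, one_mul]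

theorem jqModC_eq_eeE4LS : jqModC K = eeE4LS K ^ 3 * deltaInvLS K := by
  rw [jqModC, jNum, deltaInvLS, eeE4LS, map_mul, map_mul, map_pow, map_pow]
  ring

variable {K}

theorem lsMapHom_eeEtaLS {S : Type*} [CommRing S] (φ : K →+* S) :
    lsMapHom φ (eeEtaLS K) = eeEtaLS S := by
  rw [eeEtaLS, eeEtaLS, lsMapHom_ofPowerSeries, powerSeries_map_map_intCast]

theorem lsMapHom_eeEtaInvLS {S : Type*} [CommRing S] (φ : K →+* S) :
    lsMapHom φ (eeEtaInvLS K) = eeEtaInvLS S := by
  rw [eeEtaInvLS, eeEtaInvLS, lsMapHom_ofPowerSeries, powerSeries_map_map_intCast]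

theorem lsMapHom_eeE4LS {S : Type*} [CommRing S] (φ : K →+* S) :
    lsMapHom φ (eeE4LS K) = eeE4LS S := by
  rw [eeE4LS, eeE4LS, lsMapHom_ofPowerSeries, powerSeries_map_map_intCast]

end Formal

/-! ### Roots of power series with constant term `1` -/

/-- in `ℂ⟦X⟧`, two series with constant term `1` and equal `n`-th powers are equal -/
theorem ee_eq_of_pow_eq {A B : PowerSeries ℂ} {n : ℕ} (hn : n ≠ 0)
    (hA : PowerSeries.constantCoeff A = 1) (hB : PowerSeries.constantCoeff B = 1)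
    (h : A ^ n = B ^ n) : A = B := by
  have h1 := (Commute.all A B).geom_sum₂_mul n
  rw [h, sub_self] at h1
  rcases mul_eq_zero.mp h1 with h2 | h2
  · exfalso
    have h3 := congrArg (PowerSeries.constantCoeff (R := ℂ)) h2
    rw [map_sum, map_zero] at h3
    simp only [map_mul, map_pow, hA, hB, one_pow, mul_one, Finset.sum_const, Finset.card_range,
      nsmul_eq_mul] at h3
    exact hn (by exact_mod_cast h3)
  · exact sub_eq_zero.mp h2

/-! ### The analytic Euler product -/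

/-- `P(z) = ∏ (1 - e^{2πi n z})` on the upper half plane -/
noncomputable def eeP : ℍ → ℂ := fun z => ∏' n, (1 - eta_q n (z : ℂ))

theorem eeP_ne_zero (z : ℍ) : eeP z ≠ 0 := eta_tprod_ne_zero z.2

theorem ee_eta_eq (z : ℍ) : η (z : ℂ) = Function.Periodic.qParam 24 (z : ℂ) * eeP z := rfl

theorem eeP_mdiff : MDiff eeP := by
  rw [mdifferentiable_iff]
  have h : DifferentiableOn ℂ (fun x : ℂ => ∏' n, (1 - eta_q n x)) {z | 0 < z.im} :=
    fun z hz => (differentiableAt_eta_tprod hz).differentiableWithinAt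
  refine h.congr ?_
  intro z hz
  simp [eeP, ofComplex_apply_of_im_pos hz]

theorem eeP_vadd_nat (h : ℕ) (z : ℍ) : eeP ((h : ℝ) +ᵥ z) = eeP z := by
  simp only [eeP]
  congr 1
  funext n
  rw [eta_q_eq_cexp, eta_q_eq_cexp, coe_vadd]
  have : 2 * π * Complex.I * ((n : ℂ) + 1) * (((h : ℝ) : ℂ) + (z : ℂ)) =
      2 * π * Complex.I * ((n : ℂ) + 1) * z + (((n + 1) * h : ℕ) : ℤ) * (2 * π * Complex.I) := by
    push_cast
    ring
  rw [this, Complex.exp_add, Complex.exp_int_mul_two_pi_mul_I, mul_one]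

theorem eeP_pow_24 (z : ℍ) : eeP z ^ 24 = Δ z / qH 1 z := by
  rw [discriminant_eq_qH_mul, mul_div_cancel_left₀ _ (qH_ne_zero 1 z), eeP,
    (multipliableLocallyUniformlyOn_eta.multipliable z.2).tprod_pow]

theorem tendsto_eeP : Tendsto eeP atImInfty (𝓝 1) := by
  have htprod : Tendsto (fun q : ℂ ↦ ∏' (n : ℕ), (1 - q ^ (n + 1))) (𝓝 0) (𝓝 1) := by
    have := tendsto_tprod_one_add_of_dominated_convergence (𝓕 := 𝓝 0) (g := 0)
      (f := fun (q : ℂ) (n : ℕ) ↦ -q ^ (n + 1)) (bound := fun n ↦ (1 / 2 : ℝ) ^ (n + 1))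
    simp only [Pi.zero_apply, norm_neg, norm_pow, add_zero, tprod_one] at this
    simp_rw [sub_eq_add_neg]
    refine this
      (by simpa only [pow_succ'] using (summable_geometric_of_abs_lt_one (by norm_num)).mul_left _)
      (fun k ↦ by simpa using ((continuous_pow (M := ℂ) (k + 1)).tendsto 0).neg) ?_
    filter_upwards [Metric.ball_mem_nhds (0 : ℂ) (by norm_num : (0 : ℝ) < 1 / 2)] with q hq k
    exact pow_le_pow_left₀ (norm_nonneg _) (mem_ball_zero_iff.mp hq).le _
  have := htprod.comp (UpperHalfPlane.qParam_tendsto_atImInfty zero_lt_one)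
  refine this.congr ?_
  intro z
  simp only [Function.comp_apply, eeP, eta_q]

theorem isNice_eeP (h : ℕ) : IsNice (h : ℝ) eeP where
  mdiff := eeP_mdiff
  periodic := eeP_vadd_nat h
  bdd := tendsto_eeP.isBigO_one ℝ

theorem isNice_eeP_inv (h : ℕ) : IsNice (h : ℝ) (fun z => (eeP z)⁻¹) where
  mdiff := by
    have : (fun z => (eeP z)⁻¹) = fun z => (1 : ℂ) / eeP z := by
      funext z
      rw [one_div]
    rw [this]
    exact mdifferentiable_const.div eeP_mdiff eeP_ne_zero
  periodic z := by rw [eeP_vadd_nat]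
  bdd := by
    have : Tendsto (fun z => (eeP z)⁻¹) atImInfty (𝓝 1) := by
      have := tendsto_eeP.inv₀ one_ne_zero
      simpa only [inv_one] using this
    exact this.isBigO_one ℝ

/-- **The `q`-expansion of the Euler product** is the formal Euler product. -/
theorem qExpansion_eeP :
    qExpansion 1 eeP = PowerSeries.map (Int.castRingHom ℂ) etaProd := by
  have hh : (0 : ℝ) < ((1 : ℕ) : ℝ) := by norm_num
  have hP := isNice_eeP 1
  have h24 : (fun z => eeP z ^ 24 * qH ((1 : ℕ) : ℝ) z ^ 1) = (Δ : ℍ → ℂ) := by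
    funext z
    rw [eeP_pow_24, pow_one, Nat.cast_one, div_mul_cancel₀ _ (qH_ne_zero 1 z)]
  have h1 : qExpansion ((1 : ℕ) : ℝ) (fun z => eeP z ^ 24 * qH ((1 : ℕ) : ℝ) z ^ 1) =
      qExpansion ((1 : ℕ) : ℝ) eeP ^ 24 * PowerSeries.X ^ 1 := by
    rw [(hP.pow 24).qExpansion_mul_qH_pow 1, hP.qExpansion_pow hh]
  rw [h24, Nat.cast_one, qExpansion_discriminant, pow_one, mul_comm, dedekindEtaUnit,
    map_pow] at h1
  have h2 : PowerSeries.map (Int.castRingHom ℂ) etaProd ^ 24 = qExpansion 1 eeP ^ 24 :=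
    mul_right_cancel₀ PowerSeries.X_ne_zero h1
  refine (ee_eq_of_pow_eq (n := 24) (by norm_num) ?_ ?_ h2).symm
  · rw [← PowerSeries.coeff_zero_eq_constantCoeff_apply, PowerSeries.coeff_map,
      PowerSeries.coeff_zero_eq_constantCoeff_apply, constantCoeff_etaProd]
    simp
  · rw [← PowerSeries.coeff_zero_eq_constantCoeff_apply]
    have hh1 : (0 : ℝ) < 1 := one_pos
    have hP1 : IsNice (1 : ℝ) eeP := by simpa using hP
    rw [qExpansion_coeff_zero hh1 (hP1.analyticAt hh1) hP1.periodic']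
    exact tendsto_eeP.limUnder_eq

theorem qLaurent_eeP : qLaurent 1 eeP = eeEtaLS ℂ := by
  rw [qLaurent_of_nice (isNice_eeP 1), Nat.cast_one, qExpansion_eeP, eeEtaLS]

theorem qLaurent_eeP_inv : qLaurent 1 (fun z => (eeP z)⁻¹) = eeEtaInvLS ℂ := by
  have h1 := qLaurent_mul (isNice_eeP 1).isQLaurentable (isNice_eeP_inv 1).isQLaurentable
  have h2 : (fun z => eeP z * (eeP z)⁻¹) = fun _ => (1 : ℂ) := by
    funext z
    exact mul_inv_cancel₀ (eeP_ne_zero z)
  rw [h2, qLaurent_const, qLaurent_eeP, map_one] at h1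
  calc qLaurent 1 (fun z => (eeP z)⁻¹)
      = (eeEtaInvLS ℂ * eeEtaLS ℂ) * qLaurent 1 (fun z => (eeP z)⁻¹) := by
        rw [eeEtaInvLS_mul_eeEtaLS, one_mul]
    _ = eeEtaInvLS ℂ * (eeEtaLS ℂ * qLaurent 1 (fun z => (eeP z)⁻¹)) := by ring
    _ = eeEtaInvLS ℂ := by rw [← h1, mul_one]

end Fermat.Agent.Eis
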