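import Fermat.Agent.Lib.Eis.Eta.EtaQuot

/-!
# P11 (E): expansions of the eta quotients at the two cusps of `X₀(p)`
-/

set_option autoImplicit false

open HahnSeries ModularCurve ModularForm Complex ModularGroup CongruenceSubgroup
open Fermat.Agent.ES Fermat.Agent.S24Lib Fermat.Agent.Igusa
open UpperHalfPlane hiding I
open scoped Real MatrixGroups ModularForm Manifold

namespace Fermat.Agent.Eis

/-! ### Building blocks -/

section Blocks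

variable (h : ℕ) [NeZero h]

theorem ee_isQLaurentable_qH_inv : IsQLaurentable h (fun z => (qH (h : ℝ) z)⁻¹) where
  mdiff := by
    have : (fun z => (qH (h : ℝ) z)⁻¹) = fun z => (1 : ℂ) / qH (h : ℝ) z := by
      funext z
      rw [one_div]
    rw [this]
    exact mdifferentiable_const.div mdiff_qH (qH_ne_zero _)
  periodic z := by rw [(isNice_qH (pos_of_neZero h)).periodic]
  mero := by
    rw [isMeroAtImInfty_iff h]
    refine ⟨1, ?_⟩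
    have : (fun z => (qH (h : ℝ) z)⁻¹ * qH (h : ℝ) z ^ 1) = fun _ => (1 : ℂ) := by
      funext z
      rw [pow_one, inv_mul_cancel₀ (qH_ne_zero _ z)]
    rw [this]
    exact Filter.const_boundedAtFilter _ _

theorem ee_qLaurent_qH_inv :
    qLaurent h (fun z => (qH (h : ℝ) z)⁻¹) = HahnSeries.single (-1 : ℤ) (1 : ℂ) := by
  have hfun : (fun z => (qH (h : ℝ) z)⁻¹ * qH (h : ℝ) z ^ 1) = fun _ => (1 : ℂ) := by
    funext z
    rw [pow_one, inv_mul_cancel₀ (qH_ne_zero _ z)]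
  refine qLaurent_eq_of_mul_single (ee_isQLaurentable_qH_inv h) (k := 1) ?_ ?_
  · rw [hfun]
    exact Filter.const_boundedAtFilter _ _
  · rw [hfun, IsNice.qExpansion_const, HahnSeries.single_mul_single]
    simp

theorem ee_isQLaurentable_qH : IsQLaurentable h (qH (h : ℝ)) :=
  (isNice_qH (pos_of_neZero h)).isQLaurentable

theorem ee_qLaurent_qH : qLaurent h (qH (h : ℝ)) = HahnSeries.single (1 : ℤ) (1 : ℂ) := by
  rw [qLaurent_of_nice (isNice_qH (pos_of_neZero h)), qExpansion_qH (pos_of_neZero h),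
    HahnSeries.ofPowerSeries_X]

end Blocks

section Compose

variable (p : ℕ) [NeZero p]

/-- `g(z / p)` for a `1`-periodic `g`, expanded in `q^{1/p}`: the same series -/
theorem ee_qLaurent_comp_div {g : ℍ → ℂ} (hg : IsQLaurentable 1 g) :
    IsQLaurentable p (fun z => g (eeDiv p z)) ∧
      qLaurent p (fun z => g (eeDiv p z)) = qLaurent 1 g := by
  have hp : 0 < p := Nat.pos_of_ne_zero (NeZero.ne p)
  obtain ⟨h1, h2⟩ := qLaurent_comp_upper (N := p) (a := 1) (d := p) (e := 1) hp one_pos (0 : ℝ)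
    (by ring) hg (eeDiv p) (fun z => by
      rw [coe_eeDiv]
      push_cast
      ring)
  refine ⟨h1, ?_⟩
  ext m
  rw [h2 m, if_pos (by simp)]
  simp

/-- `g(p z)` for a `1`-periodic `g`: `q ↦ q ^ p` -/
theorem ee_qLaurent_comp_scale {g : ℍ → ℂ} (hg : IsQLaurentable 1 g) :
    IsQLaurentable 1 (fun z => g (eeScale p z)) ∧
      qLaurent 1 (fun z => g (eeScale p z)) = qExpand ℂ p (qLaurent 1 g) :=
  qLaurent_scale p hg (eeScale p) (coe_eeScale p)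

end Compose

theorem ee_isQLaurentable_eeP : IsQLaurentable 1 eeP := (isNice_eeP 1).isQLaurentable

theorem ee_isQLaurentable_eeP_inv : IsQLaurentable 1 (fun z => (eeP z)⁻¹) :=
  (isNice_eeP_inv 1).isQLaurentable

theorem ee_isQLaurentable_E4 : IsQLaurentable 1 (E₄ : ℍ → ℂ) := isNice_E₄.isQLaurentable

theorem ee_qLaurent_E4 : qLaurent 1 (E₄ : ℍ → ℂ) = eeE4LS ℂ := by
  rw [qLaurent_of_nice isNice_E₄, Nat.cast_one, qExpansion_E₄, eeE4LS]

/-! ### Exponential identities -/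

section Exp

variable (p : ℕ) [NeZero p]

local notation "𝕢" => Function.Periodic.qParam

theorem ee_exp_v_inf {k : ℕ} (hk : p = 2 * k + 1) (z : ℍ) :
    𝕢 24 (z : ℂ) ^ 12 / 𝕢 24 ((eeScale p z : ℍ) : ℂ) ^ 12 = ((qH ((1 : ℕ) : ℝ) z)⁻¹) ^ k := by
  have hp : (p : ℂ) = 2 * k + 1 := by exact_mod_cast hk
  simp only [Function.Periodic.qParam, qH, coe_eeScale]
  rw [← Complex.exp_nat_mul, ← Complex.exp_nat_mul, ← Complex.exp_sub, ← Complex.exp_neg,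
    ← Complex.exp_nat_mul]
  congr 1
  rw [hp]
  push_cast
  ring

theorem ee_exp_v_zero {k : ℕ} (hk : p = 2 * k + 1) (z : ℍ) :
    𝕢 24 (z : ℂ) ^ 12 / 𝕢 24 ((eeDiv p z : ℍ) : ℂ) ^ 12 = (qH (p : ℝ) z) ^ k := by
  have hp : (p : ℂ) = 2 * k + 1 := by exact_mod_cast hk
  have hp0 : (p : ℂ) ≠ 0 := by exact_mod_cast NeZero.ne p
  simp only [Function.Periodic.qParam, qH, coe_eeDiv]
  rw [← Complex.exp_nat_mul, ← Complex.exp_nat_mul, ← Complex.exp_sub, ← Complex.exp_nat_mul]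
  congr 1
  push_cast
  field_simp
  rw [hp]
  ring

theorem ee_exp_u_inf {k : ℕ} (hk : p = 3 * k + 1) (z : ℍ) :
    𝕢 24 (z : ℂ) ^ 8 / 𝕢 24 ((eeScale p z : ℍ) : ℂ) ^ 8 = ((qH ((1 : ℕ) : ℝ) z)⁻¹) ^ k := by
  have hp : (p : ℂ) = 3 * k + 1 := by exact_mod_cast hk
  simp only [Function.Periodic.qParam, qH, coe_eeScale]
  rw [← Complex.exp_nat_mul, ← Complex.exp_nat_mul, ← Complex.exp_sub, ← Complex.exp_neg,
    ← Complex.exp_nat_mul]
  congr 1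
  rw [hp]
  push_cast
  ring

theorem ee_exp_u_zero {k : ℕ} (hk : p = 3 * k + 1) (z : ℍ) :
    𝕢 24 (z : ℂ) ^ 8 / 𝕢 24 ((eeDiv p z : ℍ) : ℂ) ^ 8 = (qH (p : ℝ) z) ^ k := by
  have hp : (p : ℂ) = 3 * k + 1 := by exact_mod_cast hk
  have hp0 : (p : ℂ) ≠ 0 := by exact_mod_cast NeZero.ne p
  simp only [Function.Periodic.qParam, qH, coe_eeDiv]
  rw [← Complex.exp_nat_mul, ← Complex.exp_nat_mul, ← Complex.exp_sub, ← Complex.exp_nat_mul]
  congr 1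
  push_cast
  field_simp
  rw [hp]
  ring

theorem ee_exp_t_inf {k : ℕ} (hk : p + 1 = 3 * k) (z : ℍ) :
    𝕢 24 (z : ℂ) ^ 8 * 𝕢 24 ((eeScale p z : ℍ) : ℂ) ^ 8 = (qH ((1 : ℕ) : ℝ) z) ^ k := by
  have hp : (p : ℂ) + 1 = 3 * k := by exact_mod_cast hk
  have hp' : (p : ℂ) = 3 * k - 1 := by rw [← hp]; ring
  simp only [Function.Periodic.qParam, qH, coe_eeScale]
  rw [← Complex.exp_nat_mul, ← Complex.exp_nat_mul, ← Complex.exp_add, ← Complex.exp_nat_mul]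
  congr 1
  rw [hp']
  push_cast
  ring

theorem ee_exp_t_zero {k : ℕ} (hk : p + 1 = 3 * k) (z : ℍ) :
    𝕢 24 (z : ℂ) ^ 8 * 𝕢 24 ((eeDiv p z : ℍ) : ℂ) ^ 8 = (qH (p : ℝ) z) ^ k := by
  have hp : (p : ℂ) + 1 = 3 * k := by exact_mod_cast hk
  have hp' : (k : ℂ) = ((p : ℂ) + 1) / 3 := by rw [hp]; ring
  have hp0 : (p : ℂ) ≠ 0 := by exact_mod_cast NeZero.ne p
  simp only [Function.Periodic.qParam, qH, coe_eeDiv]
  rw [← Complex.exp_nat_mul, ← Complex.exp_nat_mul, ← Complex.exp_add, ← Complex.exp_nat_mul]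
  congr 1
  rw [hp']
  push_cast
  field_simp
  ring

end Exp

/-! ### The formal eta quotients -/

section FormalQuot

variable (K : Type*) [CommRing K] (p : ℕ) [NeZero p]

/-- `v = (η(z)/η(pz))¹²` at `∞`: `q^{-k} ∏ ((1 - qⁿ)/(1 - q^{pn}))¹²`, `k = (p - 1)/2` -/
noncomputable def eeVLS (k : ℕ) : LaurentSeries K :=
  HahnSeries.single (-(k : ℤ)) (1 : K) * (eeEtaLS K * qExpand K p (eeEtaInvLS K)) ^ 12

/-- `v ∘ S` in `T = q^{1/p}`: `p⁶ T^k ∏ ((1 - T^{pn})/(1 - Tⁿ))¹²` -/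
noncomputable def eeVSLS (k : ℕ) : LaurentSeries K :=
  HahnSeries.C ((p : K) ^ 6) * HahnSeries.single (k : ℤ) (1 : K) *
    (qExpand K p (eeEtaLS K) * eeEtaInvLS K) ^ 12

/-- `u₈ = (η(z)/η(pz))⁸` at `∞`, `k = (p - 1)/3` -/
noncomputable def eeU8LS (k : ℕ) : LaurentSeries K :=
  HahnSeries.single (-(k : ℤ)) (1 : K) * (eeEtaLS K * qExpand K p (eeEtaInvLS K)) ^ 8

/-- `u₈ ∘ S` in `T = q^{1/p}` -/
noncomputable def eeU8SLS (k : ℕ) : LaurentSeries K :=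
  HahnSeries.C ((p : K) ^ 4) * HahnSeries.single (k : ℤ) (1 : K) *
    (qExpand K p (eeEtaLS K) * eeEtaInvLS K) ^ 8

/-- `t = E₄²/(η(z)η(pz))⁸` at `∞`, `k = (p + 1)/3` -/
noncomputable def eeTLS (k : ℕ) : LaurentSeries K :=
  HahnSeries.single (-(k : ℤ)) (1 : K) * eeE4LS K ^ 2 *
    (eeEtaInvLS K * qExpand K p (eeEtaInvLS K)) ^ 8

/-- `t ∘ S` in `T = q^{1/p}` -/
noncomputable def eeTSLS (k : ℕ) : LaurentSeries K :=
  HahnSeries.C ((p : K) ^ 4) * HahnSeries.single (-(k : ℤ)) (1 : K) *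
    qExpand K p (eeE4LS K) ^ 2 * (qExpand K p (eeEtaInvLS K) * eeEtaInvLS K) ^ 8

variable {K}

theorem lsMapHom_eeVLS {S : Type*} [CommRing S] (φ : K →+* S) (k : ℕ) :
    lsMapHom φ (eeVLS K p k) = eeVLS S p k := by
  simp only [eeVLS, map_mul, map_pow, lsMapHom_single, map_one, lsMapHom_qExpand,
    lsMapHom_eeEtaLS, lsMapHom_eeEtaInvLS]

theorem lsMapHom_eeVSLS {S : Type*} [CommRing S] (φ : K →+* S) (k : ℕ) :
    lsMapHom φ (eeVSLS K p k) = eeVSLS S p k := by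
  simp only [eeVSLS, map_mul, map_pow, lsMapHom_single, map_one, lsMapHom_qExpand,
    lsMapHom_eeEtaLS, lsMapHom_eeEtaInvLS, map_natCast]

theorem lsMapHom_eeU8LS {S : Type*} [CommRing S] (φ : K →+* S) (k : ℕ) :
    lsMapHom φ (eeU8LS K p k) = eeU8LS S p k := by
  simp only [eeU8LS, map_mul, map_pow, lsMapHom_single, map_one, lsMapHom_qExpand,
    lsMapHom_eeEtaLS, lsMapHom_eeEtaInvLS]

theorem lsMapHom_eeU8SLS {S : Type*} [CommRing S] (φ : K →+* S) (k : ℕ) :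
    lsMapHom φ (eeU8SLS K p k) = eeU8SLS S p k := by
  simp only [eeU8SLS, map_mul, map_pow, lsMapHom_single, map_one, lsMapHom_qExpand,
    lsMapHom_eeEtaLS, lsMapHom_eeEtaInvLS, map_natCast]

theorem lsMapHom_eeTLS {S : Type*} [CommRing S] (φ : K →+* S) (k : ℕ) :
    lsMapHom φ (eeTLS K p k) = eeTLS S p k := by
  simp only [eeTLS, map_mul, map_pow, lsMapHom_single, map_one, lsMapHom_qExpand,
    lsMapHom_eeE4LS, lsMapHom_eeEtaInvLS]

theorem lsMapHom_eeTSLS {S : Type*} [CommRing S] (φ : K →+* S) (k : ℕ) :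
    lsMapHom φ (eeTSLS K p k) = eeTSLS S p k := by
  simp only [eeTSLS, map_mul, map_pow, lsMapHom_single, map_one, lsMapHom_qExpand,
    lsMapHom_eeE4LS, lsMapHom_eeEtaInvLS, map_natCast]

end FormalQuot

/-! ### The expansions -/

section Expansions

variable (p : ℕ) [NeZero p]

theorem ee_single_neg_one_pow (k : ℕ) :
    (HahnSeries.single (-1 : ℤ) (1 : ℂ)) ^ k = HahnSeries.single (-(k : ℤ)) (1 : ℂ) := by
  rw [HahnSeries.single_pow, one_pow]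
  congr 1
  simp

theorem ee_single_one_pow (k : ℕ) :
    (HahnSeries.single (1 : ℤ) (1 : ℂ)) ^ k = HahnSeries.single (k : ℤ) (1 : ℂ) := by
  rw [HahnSeries.single_pow, one_pow]
  congr 1
  simp

theorem eeV_eq {k : ℕ} (hk : p = 2 * k + 1) :
    eeV p = fun z => ((qH ((1 : ℕ) : ℝ) z)⁻¹) ^ k * (eeP z * (eeP (eeScale p z))⁻¹) ^ 12 := by
  funext z
  show η (z : ℂ) ^ 12 / η ((eeScale p z : ℍ) : ℂ) ^ 12 = _
  rw [ee_eta_eq, ee_eta_eq, ← ee_exp_v_inf p hk z, mul_pow, mul_pow, mul_pow, inv_pow]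
  rw [mul_div_mul_comm, div_eq_mul_inv (eeP z ^ 12)]

theorem ee_qLaurent_eeV {k : ℕ} (hk : p = 2 * k + 1) :
    IsQLaurentable 1 (eeV p) ∧ qLaurent 1 (eeV p) = eeVLS ℂ p k := by
  have hA := ee_isQLaurentable_qH_inv 1
  have hB := ee_isQLaurentable_eeP
  have hC := ee_qLaurent_comp_scale p ee_isQLaurentable_eeP_inv
  rw [eeV_eq p hk]
  refine ⟨(hA.pow k).mul ((hB.mul hC.1).pow 12), ?_⟩
  rw [qLaurent_mul (hA.pow k) ((hB.mul hC.1).pow 12), qLaurent_pow hA, qLaurent_pow (hB.mul hC.1),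
    qLaurent_mul hB hC.1, hC.2, ee_qLaurent_qH_inv, qLaurent_eeP, qLaurent_eeP_inv,
    ee_single_neg_one_pow, eeVLS]

theorem eeV_S_eq {k : ℕ} (hk : p = 2 * k + 1) :
    (fun z => eeV p (S • z)) = fun z => (p : ℂ) ^ 6 *
      ((qH (p : ℝ) z) ^ k * (eeP z * (eeP (eeDiv p z))⁻¹) ^ 12) := by
  funext z
  rw [eeV_S, ee_eta_eq, ee_eta_eq, ← ee_exp_v_zero p hk z, mul_pow, mul_pow, mul_pow, inv_pow]
  rw [mul_div_mul_comm, div_eq_mul_inv (eeP z ^ 12)]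

theorem ee_qLaurent_eeV_S {k : ℕ} (hk : p = 2 * k + 1) :
    IsQLaurentable p (fun z => eeV p (S • z)) ∧
      qLaurent p (fun z => eeV p (S • z)) = eeVSLS ℂ p k := by
  have hc : IsQLaurentable p (fun _ : ℍ => (p : ℂ) ^ 6) := IsQLaurentable.const p _
  have hA := ee_isQLaurentable_qH p
  have hB := qLaurent_change_period p ee_isQLaurentable_eeP
  have hC := ee_qLaurent_comp_div p ee_isQLaurentable_eeP_inv
  rw [eeV_S_eq p hk]
  refine ⟨hc.mul ((hA.pow k).mul ((hB.1.mul hC.1).pow 12)), ?_⟩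
  rw [qLaurent_mul hc ((hA.pow k).mul ((hB.1.mul hC.1).pow 12)), qLaurent_const,
    qLaurent_mul (hA.pow k) ((hB.1.mul hC.1).pow 12), qLaurent_pow hA,
    qLaurent_pow (hB.1.mul hC.1), qLaurent_mul hB.1 hC.1, hB.2, hC.2, ee_qLaurent_qH,
    qLaurent_eeP, qLaurent_eeP_inv, ee_single_one_pow, eeVSLS, mul_assoc]

theorem eeU8_eq {k : ℕ} (hk : p = 3 * k + 1) :
    eeU8 p = fun z => ((qH ((1 : ℕ) : ℝ) z)⁻¹) ^ k * (eeP z * (eeP (eeScale p z))⁻¹) ^ 8 := by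
  funext z
  show η (z : ℂ) ^ 8 / η ((eeScale p z : ℍ) : ℂ) ^ 8 = _
  rw [ee_eta_eq, ee_eta_eq, ← ee_exp_u_inf p hk z, mul_pow, mul_pow, mul_pow, inv_pow]
  rw [mul_div_mul_comm, div_eq_mul_inv (eeP z ^ 8)]

theorem ee_qLaurent_eeU8 {k : ℕ} (hk : p = 3 * k + 1) :
    IsQLaurentable 1 (eeU8 p) ∧ qLaurent 1 (eeU8 p) = eeU8LS ℂ p k := by
  have hA := ee_isQLaurentable_qH_inv 1
  have hB := ee_isQLaurentable_eeP
  have hC := ee_qLaurent_comp_scale p ee_isQLaurentable_eeP_inv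
  rw [eeU8_eq p hk]
  refine ⟨(hA.pow k).mul ((hB.mul hC.1).pow 8), ?_⟩
  rw [qLaurent_mul (hA.pow k) ((hB.mul hC.1).pow 8), qLaurent_pow hA, qLaurent_pow (hB.mul hC.1),
    qLaurent_mul hB hC.1, hC.2, ee_qLaurent_qH_inv, qLaurent_eeP, qLaurent_eeP_inv,
    ee_single_neg_one_pow, eeU8LS]

theorem eeU8_S_eq {k : ℕ} (hk : p = 3 * k + 1) :
    (fun z => eeU8 p (S • z)) = fun z => (p : ℂ) ^ 4 *
      ((qH (p : ℝ) z) ^ k * (eeP z * (eeP (eeDiv p z))⁻¹) ^ 8) := by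
  funext z
  rw [eeU8_S, ee_eta_eq, ee_eta_eq, ← ee_exp_u_zero p hk z, mul_pow, mul_pow, mul_pow, inv_pow]
  rw [mul_div_mul_comm, div_eq_mul_inv (eeP z ^ 8)]

theorem ee_qLaurent_eeU8_S {k : ℕ} (hk : p = 3 * k + 1) :
    IsQLaurentable p (fun z => eeU8 p (S • z)) ∧
      qLaurent p (fun z => eeU8 p (S • z)) = eeU8SLS ℂ p k := by
  have hc : IsQLaurentable p (fun _ : ℍ => (p : ℂ) ^ 4) := IsQLaurentable.const p _
  have hA := ee_isQLaurentable_qH p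
  have hB := qLaurent_change_period p ee_isQLaurentable_eeP
  have hC := ee_qLaurent_comp_div p ee_isQLaurentable_eeP_inv
  rw [eeU8_S_eq p hk]
  refine ⟨hc.mul ((hA.pow k).mul ((hB.1.mul hC.1).pow 8)), ?_⟩
  rw [qLaurent_mul hc ((hA.pow k).mul ((hB.1.mul hC.1).pow 8)), qLaurent_const,
    qLaurent_mul (hA.pow k) ((hB.1.mul hC.1).pow 8), qLaurent_pow hA,
    qLaurent_pow (hB.1.mul hC.1), qLaurent_mul hB.1 hC.1, hB.2, hC.2, ee_qLaurent_qH,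
    qLaurent_eeP, qLaurent_eeP_inv, ee_single_one_pow, eeU8SLS, mul_assoc]

theorem eeT_eq {k : ℕ} (hk : p + 1 = 3 * k) :
    eeT p = fun z => ((qH ((1 : ℕ) : ℝ) z)⁻¹) ^ k * E₄ z ^ 2 *
      ((eeP z)⁻¹ * (eeP (eeScale p z))⁻¹) ^ 8 := by
  funext z
  show E₄ z ^ 2 / (η (z : ℂ) ^ 8 * η ((eeScale p z : ℍ) : ℂ) ^ 8) = _
  have h1 : η (z : ℂ) ^ 8 * η ((eeScale p z : ℍ) : ℂ) ^ 8 =
      (qH ((1 : ℕ) : ℝ) z) ^ k * (eeP z * eeP (eeScale p z)) ^ 8 := by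
    rw [ee_eta_eq, ee_eta_eq, ← ee_exp_t_inf p hk z, mul_pow, mul_pow, mul_pow]
    ring
  rw [h1, inv_pow, ← mul_inv, div_eq_mul_inv, mul_inv, inv_pow]
  ring

theorem ee_qLaurent_eeT {k : ℕ} (hk : p + 1 = 3 * k) :
    IsQLaurentable 1 (eeT p) ∧ qLaurent 1 (eeT p) = eeTLS ℂ p k := by
  have hA := ee_isQLaurentable_qH_inv 1
  have hE := ee_isQLaurentable_E4
  have hB := ee_isQLaurentable_eeP_inv
  have hC := ee_qLaurent_comp_scale p ee_isQLaurentable_eeP_inv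
  rw [eeT_eq p hk]
  refine ⟨((hA.pow k).mul (hE.pow 2)).mul ((hB.mul hC.1).pow 8), ?_⟩
  rw [qLaurent_mul ((hA.pow k).mul (hE.pow 2)) ((hB.mul hC.1).pow 8),
    qLaurent_mul (hA.pow k) (hE.pow 2), qLaurent_pow hA, qLaurent_pow hE,
    qLaurent_pow (hB.mul hC.1), qLaurent_mul hB hC.1, hC.2, ee_qLaurent_qH_inv, ee_qLaurent_E4,
    qLaurent_eeP_inv, ee_single_neg_one_pow, eeTLS]

theorem eeT_S_eq {k : ℕ} (hk : p + 1 = 3 * k) :
    (fun z => eeT p (S • z)) = fun z => (p : ℂ) ^ 4 *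
      (((qH (p : ℝ) z)⁻¹) ^ k * E₄ z ^ 2 * ((eeP z)⁻¹ * (eeP (eeDiv p z))⁻¹) ^ 8) := by
  funext z
  rw [eeT_S]
  have h1 : η (z : ℂ) ^ 8 * η ((eeDiv p z : ℍ) : ℂ) ^ 8 =
      (qH (p : ℝ) z) ^ k * (eeP z * eeP (eeDiv p z)) ^ 8 := by
    rw [ee_eta_eq, ee_eta_eq, ← ee_exp_t_zero p hk z, mul_pow, mul_pow, mul_pow]
    ring
  rw [h1, inv_pow, ← mul_inv, div_eq_mul_inv, mul_inv, inv_pow]
  ring

theorem ee_qLaurent_eeT_S {k : ℕ} (hk : p + 1 = 3 * k) :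
    IsQLaurentable p (fun z => eeT p (S • z)) ∧
      qLaurent p (fun z => eeT p (S • z)) = eeTSLS ℂ p k := by
  have hc : IsQLaurentable p (fun _ : ℍ => (p : ℂ) ^ 4) := IsQLaurentable.const p _
  have hA := ee_isQLaurentable_qH_inv p
  have hE := qLaurent_change_period p ee_isQLaurentable_E4
  have hB := qLaurent_change_period p ee_isQLaurentable_eeP_inv
  have hC := ee_qLaurent_comp_div p ee_isQLaurentable_eeP_inv
  rw [eeT_S_eq p hk]
  refine ⟨hc.mul (((hA.pow k).mul (hE.1.pow 2)).mul ((hB.1.mul hC.1).pow 8)), ?_⟩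
  rw [qLaurent_mul hc (((hA.pow k).mul (hE.1.pow 2)).mul ((hB.1.mul hC.1).pow 8)),
    qLaurent_const, qLaurent_mul ((hA.pow k).mul (hE.1.pow 2)) ((hB.1.mul hC.1).pow 8),
    qLaurent_mul (hA.pow k) (hE.1.pow 2), qLaurent_pow hA, qLaurent_pow hE.1,
    qLaurent_pow (hB.1.mul hC.1), qLaurent_mul hB.1 hC.1, hE.2, hB.2, hC.2, ee_qLaurent_qH_inv,
    ee_qLaurent_E4, qLaurent_eeP_inv, ee_single_neg_one_pow, eeTSLS]
  ring

end Expansions

end Fermat.Agent.Eis
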