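import Mathlib

/-!
# P11 (E): the characters of `η⁸` and `η¹²` on `SL(2, ℤ)`

`η^a ∣[a/2] γ = χ_a(γ) η^a` for `a ∈ {8, 12}`, where `χ_8(γ) = ζ₃ ^ κ₃(γ)` and
`χ_12(γ) = (-1) ^ κ₂(γ)` for the explicit functions
`κ₃(γ) = (a + d) c - b d (c² - 1) mod 3`, `κ₂(γ) = a c + c d + c + b + b c mod 2`
of the entries.  Proof: induction over words in the generators `S`, `T` (right multiplication),
from `η(z + 1) = e^{2πi/24} η(z)` and Mathlib's `η(-1/z) = (√i)⁻¹ √z η(z)`.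
-/

set_option autoImplicit false

open ModularForm Complex ModularGroup
open UpperHalfPlane hiding I
open scoped Real MatrixGroups ModularForm

namespace Fermat.Agent.Eis

/-! ### The transformation of `η` under `T` and `S` -/

theorem ee_eta_add_one (z : ℂ) : η (z + 1) = cexp (2 * π * I / 24) * η z := by
  have h1 : Function.Periodic.qParam 24 (z + 1) =
      cexp (2 * π * I / 24) * Function.Periodic.qParam 24 z := by
    simp only [Function.Periodic.qParam]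
    rw [← Complex.exp_add]
    congr 1
    push_cast
    ring
  have h2 : ∀ n, eta_q n (z + 1) = eta_q n z := by
    intro n
    rw [eta_q_eq_cexp, eta_q_eq_cexp]
    have : 2 * π * I * ((n : ℂ) + 1) * (z + 1) =
        2 * π * I * ((n : ℂ) + 1) * z + ((n + 1 : ℕ) : ℤ) * (2 * π * I) := by
      push_cast
      ring
    rw [this, Complex.exp_add, Complex.exp_int_mul_two_pi_mul_I, mul_one]
  rw [ModularForm.eta, ModularForm.eta, h1]
  simp only [h2]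
  ring

theorem ee_sqrt_sq (z : ℂ) : Complex.sqrt z ^ 2 = z := by
  rw [Complex.sqrt]
  exact Complex.cpow_nat_inv_pow z two_ne_zero

theorem ee_eta_S (z : ℍ) :
    η (-(z : ℂ)⁻¹) = (Complex.sqrt I)⁻¹ * (Complex.sqrt z * η z) := by
  simpa [neg_div] using eta_comp_eq_csqrt_I_inv z.2

/-- `η^a` as a function on the upper half plane -/
noncomputable def eePow (a : ℕ) : ℍ → ℂ := fun z => η (z : ℂ) ^ a

theorem eePow_apply (a : ℕ) (z : ℍ) : eePow a z = η (z : ℂ) ^ a := rfl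

theorem eePow_ne_zero (a : ℕ) (z : ℍ) : eePow a z ≠ 0 := pow_ne_zero _ (eta_ne_zero z.2)

theorem eePow_slash_T (a : ℕ) (k : ℤ) :
    eePow a ∣[k] T = cexp (2 * π * I / 24) ^ a • eePow a := by
  ext z
  rw [SL_slash_apply, modular_T_smul]
  have hd : denom (Matrix.SpecialLinearGroup.toGL
      ((Matrix.SpecialLinearGroup.map (Int.castRingHom ℝ)) T)) (z : ℂ) = 1 := by
    rw [ModularGroup.denom_apply]
    simp [ModularGroup.T]
  rw [hd, one_zpow, mul_one, Pi.smul_apply, smul_eq_mul, eePow_apply, eePow_apply]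
  have : (((1 : ℝ) +ᵥ z : ℍ) : ℂ) = (z : ℂ) + 1 := by
    rw [UpperHalfPlane.coe_vadd]
    push_cast
    ring
  rw [this, ee_eta_add_one, mul_pow]

theorem eePow_slash_S (a : ℕ) (k : ℤ) (z : ℍ) :
    (eePow a ∣[k] S) z =
      (Complex.sqrt I)⁻¹ ^ a * Complex.sqrt z ^ a * (z : ℂ) ^ (-k) * eePow a z := by
  rw [SL_slash_apply, modular_S_smul, denom_S, eePow_apply, eePow_apply]
  have : ((⟨(-(z : ℂ))⁻¹, z.im_inv_neg_coe_pos⟩ : ℍ) : ℂ) = -(z : ℂ)⁻¹ := inv_neg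
  rw [this, ee_eta_S, mul_pow, mul_pow]
  ring

theorem eePow_eight_slash_S : eePow 8 ∣[(4 : ℤ)] S = eePow 8 := by
  ext z
  rw [eePow_slash_S]
  have h1 : (Complex.sqrt I)⁻¹ ^ 8 = 1 := by
    rw [inv_pow, show (8 : ℕ) = 2 * 4 by norm_num, pow_mul, ee_sqrt_sq, I_pow_four, inv_one]
  have h2 : Complex.sqrt z ^ 8 = (z : ℂ) ^ 4 := by
    rw [show (8 : ℕ) = 2 * 4 by norm_num, pow_mul, ee_sqrt_sq]
  rw [h1, h2, one_mul, zpow_neg, show ((z : ℂ) ^ (4 : ℤ)) = (z : ℂ) ^ 4 by norm_cast,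
    mul_inv_cancel₀ (pow_ne_zero _ (ne_zero z)), one_mul]

theorem eePow_twelve_slash_S : eePow 12 ∣[(6 : ℤ)] S = -eePow 12 := by
  ext z
  rw [eePow_slash_S]
  have h1 : (Complex.sqrt I)⁻¹ ^ 12 = -1 := by
    rw [inv_pow, show (12 : ℕ) = 2 * 6 by norm_num, pow_mul, ee_sqrt_sq,
      show (6 : ℕ) = 4 + 2 by norm_num, pow_add, I_pow_four, I_sq]
    norm_num
  have h2 : Complex.sqrt z ^ 12 = (z : ℂ) ^ 6 := by
    rw [show (12 : ℕ) = 2 * 6 by norm_num, pow_mul, ee_sqrt_sq]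
  rw [h1, h2, zpow_neg, show ((z : ℂ) ^ (6 : ℤ)) = (z : ℂ) ^ 6 by norm_cast, mul_assoc (-1 : ℂ),
    mul_inv_cancel₀ (pow_ne_zero _ (ne_zero z)), mul_one, Pi.neg_apply]
  ring

/-! ### The explicit characters -/

/-- `κ₃ = (a + d) c - b d (c² - 1)` -/
def eeK3 (a b c d : ZMod 3) : ZMod 3 := (a + d) * c - b * d * (c ^ 2 - 1)

theorem eeK3_T : ∀ a b c d : ZMod 3, a * d - b * c = 1 →
    eeK3 a (a + b) c (c + d) = eeK3 a b c d + 1 := by decide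

theorem eeK3_Tinv : ∀ a b c d : ZMod 3, a * d - b * c = 1 →
    eeK3 a (b - a) c (d - c) = eeK3 a b c d - 1 := by decide

theorem eeK3_S : ∀ a b c d : ZMod 3, a * d - b * c = 1 →
    eeK3 b (-a) d (-c) = eeK3 a b c d := by decide

theorem eeK3_Sinv : ∀ a b c d : ZMod 3, a * d - b * c = 1 →
    eeK3 (-b) a (-d) c = eeK3 a b c d := by decide

/-- `κ₂ = a c + c d + c + b + b c` -/
def eeK2 (a b c d : ZMod 2) : ZMod 2 := a * c + c * d + c + b + b * c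

theorem eeK2_T : ∀ a b c d : ZMod 2, a * d - b * c = 1 →
    eeK2 a (a + b) c (c + d) = eeK2 a b c d + 1 := by decide

theorem eeK2_Tinv : ∀ a b c d : ZMod 2, a * d - b * c = 1 →
    eeK2 a (b - a) c (d - c) = eeK2 a b c d - 1 := by decide

theorem eeK2_S : ∀ a b c d : ZMod 2, a * d - b * c = 1 →
    eeK2 b (-a) d (-c) = eeK2 a b c d + 1 := by decide

theorem eeK2_Sinv : ∀ a b c d : ZMod 2, a * d - b * c = 1 →
    eeK2 (-b) a (-d) c = eeK2 a b c d - 1 := by decide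

/-- `κ₃` of a matrix in `SL(2, ℤ)` -/
def eeKappa3 (γ : SL(2, ℤ)) : ZMod 3 :=
  eeK3 ((γ 0 0 : ℤ) : ZMod 3) ((γ 0 1 : ℤ) : ZMod 3) ((γ 1 0 : ℤ) : ZMod 3) ((γ 1 1 : ℤ) : ZMod 3)

/-- `κ₂` of a matrix in `SL(2, ℤ)` -/
def eeKappa2 (γ : SL(2, ℤ)) : ZMod 2 :=
  eeK2 ((γ 0 0 : ℤ) : ZMod 2) ((γ 0 1 : ℤ) : ZMod 2) ((γ 1 0 : ℤ) : ZMod 2) ((γ 1 1 : ℤ) : ZMod 2)

theorem ee_det_cast (γ : SL(2, ℤ)) (n : ℕ) :
    ((γ 0 0 : ℤ) : ZMod n) * ((γ 1 1 : ℤ) : ZMod n) -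
      ((γ 0 1 : ℤ) : ZMod n) * ((γ 1 0 : ℤ) : ZMod n) = 1 := by
  have h := γ.det_coe
  rw [Matrix.det_fin_two] at h
  have h2 := congrArg (Int.cast : ℤ → ZMod n) h
  push_cast at h2
  exact h2

theorem ee_coe_mul_T (γ : SL(2, ℤ)) : ((γ * T : SL(2, ℤ)) : Matrix (Fin 2) (Fin 2) ℤ) =
    !![γ 0 0, γ 0 0 + γ 0 1; γ 1 0, γ 1 0 + γ 1 1] := by
  rw [Matrix.SpecialLinearGroup.coe_mul, coe_T]
  ext i j
  fin_cases i <;> fin_cases j <;> simp [Matrix.mul_apply, Fin.sum_univ_two]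

theorem ee_coe_mul_T_inv (γ : SL(2, ℤ)) : ((γ * T⁻¹ : SL(2, ℤ)) : Matrix (Fin 2) (Fin 2) ℤ) =
    !![γ 0 0, γ 0 1 - γ 0 0; γ 1 0, γ 1 1 - γ 1 0] := by
  rw [Matrix.SpecialLinearGroup.coe_mul, coe_T_inv]
  ext i j
  fin_cases i <;> fin_cases j <;> simp [Matrix.mul_apply, Fin.sum_univ_two] <;> ring

theorem ee_coe_mul_S (γ : SL(2, ℤ)) : ((γ * S : SL(2, ℤ)) : Matrix (Fin 2) (Fin 2) ℤ) =
    !![γ 0 1, -γ 0 0; γ 1 1, -γ 1 0] := by
  rw [Matrix.SpecialLinearGroup.coe_mul, coe_S]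
  ext i j
  fin_cases i <;> fin_cases j <;> simp [Matrix.mul_apply, Fin.sum_univ_two]

theorem ee_coe_mul_S_inv (γ : SL(2, ℤ)) : ((γ * S⁻¹ : SL(2, ℤ)) : Matrix (Fin 2) (Fin 2) ℤ) =
    !![-γ 0 1, γ 0 0; -γ 1 1, γ 1 0] := by
  rw [Matrix.SpecialLinearGroup.coe_mul, Matrix.SpecialLinearGroup.coe_inv, coe_S]
  ext i j
  fin_cases i <;> fin_cases j <;>
    simp [Matrix.mul_apply, Fin.sum_univ_two, Matrix.adjugate_fin_two]

theorem eeKappa3_mul_T (γ : SL(2, ℤ)) : eeKappa3 (γ * T) = eeKappa3 γ + 1 := by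
  have h := ee_coe_mul_T γ
  have e : ∀ i j, (γ * T : SL(2, ℤ)) i j = (!![γ 0 0, γ 0 0 + γ 0 1; γ 1 0, γ 1 0 + γ 1 1] :
      Matrix (Fin 2) (Fin 2) ℤ) i j := fun i j => congrFun (congrFun h i) j
  rw [eeKappa3, e 0 0, e 0 1, e 1 0, e 1 1]
  simp only [Matrix.of_apply, Matrix.cons_val', Matrix.cons_val_zero, Matrix.cons_val_one,
    Matrix.cons_val_fin_one]
  push_cast
  exact eeK3_T _ _ _ _ (ee_det_cast γ 3)

theorem eeKappa3_mul_T_inv (γ : SL(2, ℤ)) : eeKappa3 (γ * T⁻¹) = eeKappa3 γ - 1 := by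
  have h := ee_coe_mul_T_inv γ
  have e : ∀ i j, (γ * T⁻¹ : SL(2, ℤ)) i j = (!![γ 0 0, γ 0 1 - γ 0 0; γ 1 0, γ 1 1 - γ 1 0] :
      Matrix (Fin 2) (Fin 2) ℤ) i j := fun i j => congrFun (congrFun h i) j
  rw [eeKappa3, e 0 0, e 0 1, e 1 0, e 1 1]
  simp only [Matrix.of_apply, Matrix.cons_val', Matrix.cons_val_zero, Matrix.cons_val_one,
    Matrix.cons_val_fin_one]
  push_cast
  exact eeK3_Tinv _ _ _ _ (ee_det_cast γ 3)

theorem eeKappa3_mul_S (γ : SL(2, ℤ)) : eeKappa3 (γ * S) = eeKappa3 γ := by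
  have h := ee_coe_mul_S γ
  have e : ∀ i j, (γ * S : SL(2, ℤ)) i j = (!![γ 0 1, -γ 0 0; γ 1 1, -γ 1 0] :
      Matrix (Fin 2) (Fin 2) ℤ) i j := fun i j => congrFun (congrFun h i) j
  rw [eeKappa3, e 0 0, e 0 1, e 1 0, e 1 1]
  simp only [Matrix.of_apply, Matrix.cons_val', Matrix.cons_val_zero, Matrix.cons_val_one,
    Matrix.cons_val_fin_one]
  push_cast
  exact eeK3_S _ _ _ _ (ee_det_cast γ 3)

theorem eeKappa3_mul_S_inv (γ : SL(2, ℤ)) : eeKappa3 (γ * S⁻¹) = eeKappa3 γ := by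
  have h := ee_coe_mul_S_inv γ
  have e : ∀ i j, (γ * S⁻¹ : SL(2, ℤ)) i j = (!![-γ 0 1, γ 0 0; -γ 1 1, γ 1 0] :
      Matrix (Fin 2) (Fin 2) ℤ) i j := fun i j => congrFun (congrFun h i) j
  rw [eeKappa3, e 0 0, e 0 1, e 1 0, e 1 1]
  simp only [Matrix.of_apply, Matrix.cons_val', Matrix.cons_val_zero, Matrix.cons_val_one,
    Matrix.cons_val_fin_one]
  push_cast
  exact eeK3_Sinv _ _ _ _ (ee_det_cast γ 3)

theorem eeKappa2_mul_T (γ : SL(2, ℤ)) : eeKappa2 (γ * T) = eeKappa2 γ + 1 := by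
  have h := ee_coe_mul_T γ
  have e : ∀ i j, (γ * T : SL(2, ℤ)) i j = (!![γ 0 0, γ 0 0 + γ 0 1; γ 1 0, γ 1 0 + γ 1 1] :
      Matrix (Fin 2) (Fin 2) ℤ) i j := fun i j => congrFun (congrFun h i) j
  rw [eeKappa2, e 0 0, e 0 1, e 1 0, e 1 1]
  simp only [Matrix.of_apply, Matrix.cons_val', Matrix.cons_val_zero, Matrix.cons_val_one,
    Matrix.cons_val_fin_one]
  push_cast
  exact eeK2_T _ _ _ _ (ee_det_cast γ 2)

theorem eeKappa2_mul_T_inv (γ : SL(2, ℤ)) : eeKappa2 (γ * T⁻¹) = eeKappa2 γ - 1 := by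
  have h := ee_coe_mul_T_inv γ
  have e : ∀ i j, (γ * T⁻¹ : SL(2, ℤ)) i j = (!![γ 0 0, γ 0 1 - γ 0 0; γ 1 0, γ 1 1 - γ 1 0] :
      Matrix (Fin 2) (Fin 2) ℤ) i j := fun i j => congrFun (congrFun h i) j
  rw [eeKappa2, e 0 0, e 0 1, e 1 0, e 1 1]
  simp only [Matrix.of_apply, Matrix.cons_val', Matrix.cons_val_zero, Matrix.cons_val_one,
    Matrix.cons_val_fin_one]
  push_cast
  exact eeK2_Tinv _ _ _ _ (ee_det_cast γ 2)

theorem eeKappa2_mul_S (γ : SL(2, ℤ)) : eeKappa2 (γ * S) = eeKappa2 γ + 1 := by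
  have h := ee_coe_mul_S γ
  have e : ∀ i j, (γ * S : SL(2, ℤ)) i j = (!![γ 0 1, -γ 0 0; γ 1 1, -γ 1 0] :
      Matrix (Fin 2) (Fin 2) ℤ) i j := fun i j => congrFun (congrFun h i) j
  rw [eeKappa2, e 0 0, e 0 1, e 1 0, e 1 1]
  simp only [Matrix.of_apply, Matrix.cons_val', Matrix.cons_val_zero, Matrix.cons_val_one,
    Matrix.cons_val_fin_one]
  push_cast
  exact eeK2_S _ _ _ _ (ee_det_cast γ 2)

theorem eeKappa2_mul_S_inv (γ : SL(2, ℤ)) : eeKappa2 (γ * S⁻¹) = eeKappa2 γ - 1 := by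
  have h := ee_coe_mul_S_inv γ
  have e : ∀ i j, (γ * S⁻¹ : SL(2, ℤ)) i j = (!![-γ 0 1, γ 0 0; -γ 1 1, γ 1 0] :
      Matrix (Fin 2) (Fin 2) ℤ) i j := fun i j => congrFun (congrFun h i) j
  rw [eeKappa2, e 0 0, e 0 1, e 1 0, e 1 1]
  simp only [Matrix.of_apply, Matrix.cons_val', Matrix.cons_val_zero, Matrix.cons_val_one,
    Matrix.cons_val_fin_one]
  push_cast
  exact eeK2_Sinv _ _ _ _ (ee_det_cast γ 2)

/-! ### The characters of `η⁸` and `η¹²` -/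

theorem ee_stdAddChar_three_one :
    (ZMod.stdAddChar (1 : ZMod 3) : ℂ) = cexp (2 * π * I / 24) ^ 8 := by
  rw [ZMod.stdAddChar_apply, ZMod.toCircle_apply, ← Complex.exp_nat_mul]
  congr 1
  rw [ZMod.val_one]
  push_cast
  ring

theorem ee_stdAddChar_two_one :
    (ZMod.stdAddChar (1 : ZMod 2) : ℂ) = cexp (2 * π * I / 24) ^ 12 := by
  rw [ZMod.stdAddChar_apply, ZMod.toCircle_apply, ← Complex.exp_nat_mul]
  congr 1
  rw [ZMod.val_one]
  push_cast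
  ring

theorem ee_stdAddChar_two_one' : (ZMod.stdAddChar (1 : ZMod 2) : ℂ) = -1 := by
  rw [ZMod.stdAddChar_apply, ZMod.toCircle_apply, ZMod.val_one]
  have : 2 * (π : ℂ) * I * ((1 : ℕ) : ℂ) / ((2 : ℕ) : ℂ) = π * I := by
    push_cast
    ring
  rw [this, Complex.exp_pi_mul_I]

/-- the slash of a function which is an eigenfunction of `g`, under `g⁻¹` -/
theorem ee_slash_inv_of_slash {k : ℤ} {f : ℍ → ℂ} {g : SL(2, ℤ)} {c : ℂ} (hc : c ≠ 0)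
    (h : f ∣[k] g = c • f) : f ∣[k] g⁻¹ = c⁻¹ • f := by
  have h1 : (f ∣[k] g) ∣[k] g⁻¹ = f := by
    rw [← SlashAction.slash_mul, mul_inv_cancel, SlashAction.slash_one]
  rw [h, SL_smul_slash] at h1
  have h2 := congrArg (fun F => c⁻¹ • F) h1
  simp only [smul_smul, inv_mul_cancel₀ hc, one_smul] at h2
  exact h2

/-- **The character of `η⁸`**: `η⁸ ∣[4] γ = ζ₃ ^ κ₃(γ) η⁸`. -/
theorem eePow_eight_slash (γ : SL(2, ℤ)) :
    eePow 8 ∣[(4 : ℤ)] γ = (ZMod.stdAddChar (eeKappa3 γ) : ℂ) • eePow 8 := by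
  have hT : eePow 8 ∣[(4 : ℤ)] T = (ZMod.stdAddChar (1 : ZMod 3) : ℂ) • eePow 8 := by
    rw [eePow_slash_T, ee_stdAddChar_three_one]
  have hTi : eePow 8 ∣[(4 : ℤ)] T⁻¹ = (ZMod.stdAddChar (-1 : ZMod 3) : ℂ) • eePow 8 := by
    have hne : (ZMod.stdAddChar (1 : ZMod 3) : ℂ) ≠ 0 := by
      rw [ee_stdAddChar_three_one]
      exact pow_ne_zero _ (Complex.exp_ne_zero _)
    rw [ee_slash_inv_of_slash hne hT, AddChar.map_neg_eq_inv]
  have hS : eePow 8 ∣[(4 : ℤ)] S = (1 : ℂ) • eePow 8 := by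
    rw [eePow_eight_slash_S, one_smul]
  have hSi : eePow 8 ∣[(4 : ℤ)] S⁻¹ = eePow 8 := by
    have := ee_slash_inv_of_slash one_ne_zero hS
    rwa [inv_one, one_smul] at this
  have hγ : γ ∈ Subgroup.closure {S, T} := by simp [SpecialLinearGroup.SL2Z_generators]
  induction hγ using Subgroup.closure_induction_right with
  | one =>
    rw [SlashAction.slash_one]
    have : eeKappa3 1 = 0 := by
      simp [eeKappa3, eeK3]
    rw [this, AddChar.map_zero_eq_one, one_smul]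
  | mul_right x hx y hy ih =>
    rcases hy with rfl | hy
    · rw [SlashAction.slash_mul, ih, SL_smul_slash, eePow_eight_slash_S, eeKappa3_mul_S]
    · rw [Set.mem_singleton_iff] at hy
      subst hy
      rw [SlashAction.slash_mul, ih, SL_smul_slash, hT, eeKappa3_mul_T, AddChar.map_add_eq_mul,
        smul_smul]
  | mul_inv_cancel x hx y hy ih =>
    rcases hy with rfl | hy
    · rw [SlashAction.slash_mul, ih, SL_smul_slash, hSi, eeKappa3_mul_S_inv]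
    · rw [Set.mem_singleton_iff] at hy
      subst hy
      rw [SlashAction.slash_mul, ih, SL_smul_slash, hTi, eeKappa3_mul_T_inv, sub_eq_add_neg,
        AddChar.map_add_eq_mul, smul_smul]

/-- **The character of `η¹²`**: `η¹² ∣[6] γ = (-1) ^ κ₂(γ) η¹²`. -/
theorem eePow_twelve_slash (γ : SL(2, ℤ)) :
    eePow 12 ∣[(6 : ℤ)] γ = (ZMod.stdAddChar (eeKappa2 γ) : ℂ) • eePow 12 := by
  have hne : (ZMod.stdAddChar (1 : ZMod 2) : ℂ) ≠ 0 := by
    rw [ee_stdAddChar_two_one]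
    exact pow_ne_zero _ (Complex.exp_ne_zero _)
  have hT : eePow 12 ∣[(6 : ℤ)] T = (ZMod.stdAddChar (1 : ZMod 2) : ℂ) • eePow 12 := by
    rw [eePow_slash_T, ee_stdAddChar_two_one]
  have hTi : eePow 12 ∣[(6 : ℤ)] T⁻¹ = (ZMod.stdAddChar (-1 : ZMod 2) : ℂ) • eePow 12 := by
    rw [ee_slash_inv_of_slash hne hT, AddChar.map_neg_eq_inv]
  have hS : eePow 12 ∣[(6 : ℤ)] S = (ZMod.stdAddChar (1 : ZMod 2) : ℂ) • eePow 12 := by
    rw [eePow_twelve_slash_S, ee_stdAddChar_two_one', neg_one_smul]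
  have hSi : eePow 12 ∣[(6 : ℤ)] S⁻¹ = (ZMod.stdAddChar (-1 : ZMod 2) : ℂ) • eePow 12 := by
    rw [ee_slash_inv_of_slash hne hS, AddChar.map_neg_eq_inv]
  have hγ : γ ∈ Subgroup.closure {S, T} := by simp [SpecialLinearGroup.SL2Z_generators]
  induction hγ using Subgroup.closure_induction_right with
  | one =>
    rw [SlashAction.slash_one]
    have : eeKappa2 1 = 0 := by
      simp [eeKappa2, eeK2]
    rw [this, AddChar.map_zero_eq_one, one_smul]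
  | mul_right x hx y hy ih =>
    rcases hy with rfl | hy
    · rw [SlashAction.slash_mul, ih, SL_smul_slash, hS, eeKappa2_mul_S, AddChar.map_add_eq_mul,
        smul_smul]
    · rw [Set.mem_singleton_iff] at hy
      subst hy
      rw [SlashAction.slash_mul, ih, SL_smul_slash, hT, eeKappa2_mul_T, AddChar.map_add_eq_mul,
        smul_smul]
  | mul_inv_cancel x hx y hy ih =>
    rcases hy with rfl | hy
    · rw [SlashAction.slash_mul, ih, SL_smul_slash, hSi, eeKappa2_mul_S_inv, sub_eq_add_neg,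
        AddChar.map_add_eq_mul, smul_smul]
    · rw [Set.mem_singleton_iff] at hy
      subst hy
      rw [SlashAction.slash_mul, ih, SL_smul_slash, hTi, eeKappa2_mul_T_inv, sub_eq_add_neg,
        AddChar.map_add_eq_mul, smul_smul]

/-! ### Pointwise forms -/

theorem eePow_eight_smul (γ : SL(2, ℤ)) (z : ℍ) :
    η ((γ • z : ℍ) : ℂ) ^ 8 =
      (ZMod.stdAddChar (eeKappa3 γ) : ℂ) * denom γ z ^ 4 * η (z : ℂ) ^ 8 := by
  have h := congrFun (eePow_eight_slash γ) z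
  rw [SL_slash_apply, Pi.smul_apply, smul_eq_mul, eePow_apply, eePow_apply] at h
  have hd : denom γ z ≠ 0 := denom_ne_zero γ z
  have e : η ((γ • z : ℍ) : ℂ) ^ 8 = η ((γ • z : ℍ) : ℂ) ^ 8 * denom γ z ^ (-(4 : ℤ)) *
      denom γ z ^ 4 := by
    rw [mul_assoc, zpow_neg, show (denom γ z ^ (4 : ℤ)) = denom γ z ^ 4 by norm_cast,
      inv_mul_cancel₀ (pow_ne_zero _ hd), mul_one]
  rw [e]
  have h' : η ((γ • z : ℍ) : ℂ) ^ 8 * denom γ z ^ (-(4 : ℤ)) =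
      (ZMod.stdAddChar (eeKappa3 γ) : ℂ) * η (z : ℂ) ^ 8 := h
  rw [h']
  ring

theorem eePow_twelve_smul (γ : SL(2, ℤ)) (z : ℍ) :
    η ((γ • z : ℍ) : ℂ) ^ 12 =
      (ZMod.stdAddChar (eeKappa2 γ) : ℂ) * denom γ z ^ 6 * η (z : ℂ) ^ 12 := by
  have h := congrFun (eePow_twelve_slash γ) z
  rw [SL_slash_apply, Pi.smul_apply, smul_eq_mul, eePow_apply, eePow_apply] at h
  have hd : denom γ z ≠ 0 := denom_ne_zero γ z
  have e : η ((γ • z : ℍ) : ℂ) ^ 12 = η ((γ • z : ℍ) : ℂ) ^ 12 * denom γ z ^ (-(6 : ℤ)) *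
      denom γ z ^ 6 := by
    rw [mul_assoc, zpow_neg, show (denom γ z ^ (6 : ℤ)) = denom γ z ^ 6 by norm_cast,
      inv_mul_cancel₀ (pow_ne_zero _ hd), mul_one]
  rw [e]
  have h' : η ((γ • z : ℍ) : ℂ) ^ 12 * denom γ z ^ (-(6 : ℤ)) =
      (ZMod.stdAddChar (eeKappa2 γ) : ℂ) * η (z : ℂ) ^ 12 := h
  rw [h']
  ring

end Fermat.Agent.Eis
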