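import Fermat.Agent.Lib.Eis.Eta.EtaChar
import Fermat.Agent.Lib.Eis.Eta.EtaProd
import Fermat.Agent.Lib.Eis.Geom.BridgeIntegral

/-!
# P11 (E): the eta quotients `v = (η(z)/η(pz))¹²`, `u₈ = (η(z)/η(pz))⁸`, `t = E₄²/(η(z)η(pz))⁸`

* `Γ₀(p)`-invariance: `v` for `p` odd, `u₈` for `p ≡ 1 mod 3`, `t` for `p ≡ 2 mod 3`;
* their behaviour under `S`.
-/

set_option autoImplicit false

open ModularForm Complex ModularGroup CongruenceSubgroup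
open Fermat.Agent.S24Lib
open UpperHalfPlane hiding I
open scoped Real MatrixGroups ModularForm

namespace Fermat.Agent.Eis

/-! ### The maps `z ↦ p z` and `z ↦ z / p` -/

/-- `z ↦ p z` on the upper half plane -/
noncomputable def eeScale (p : ℕ) [NeZero p] (z : ℍ) : ℍ :=
  ⟨(p : ℂ) * z, by
    have hp : (0 : ℝ) < p := by exact_mod_cast Nat.pos_of_ne_zero (NeZero.ne p)
    have : ((p : ℂ) * (z : ℂ)).im = p * z.im := by simp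
    rw [this]
    exact mul_pos hp z.im_pos⟩

/-- `z ↦ z / p` on the upper half plane -/
noncomputable def eeDiv (p : ℕ) [NeZero p] (z : ℍ) : ℍ :=
  ⟨(z : ℂ) / p, by
    have hp : (0 : ℝ) < p := by exact_mod_cast Nat.pos_of_ne_zero (NeZero.ne p)
    have : ((z : ℂ) / (p : ℂ)).im = z.im / p := by
      rw [show ((p : ℂ)) = ((p : ℝ) : ℂ) by push_cast; rfl, Complex.div_ofReal_im]
      rfl
    rw [this]
    exact div_pos z.im_pos hp⟩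

@[simp] theorem coe_eeScale (p : ℕ) [NeZero p] (z : ℍ) : ((eeScale p z : ℍ) : ℂ) = p * z := rfl

@[simp] theorem coe_eeDiv (p : ℕ) [NeZero p] (z : ℍ) : ((eeDiv p z : ℍ) : ℂ) = z / p := rfl

theorem eeScale_smul_S (p : ℕ) [NeZero p] (z : ℍ) : eeScale p (S • z) = S • eeDiv p z := by
  have hp : (p : ℂ) ≠ 0 := by exact_mod_cast NeZero.ne p
  have hz : (z : ℂ) ≠ 0 := ne_zero z
  apply UpperHalfPlane.ext
  rw [coe_eeScale, modular_S_smul, modular_S_smul]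
  show (p : ℂ) * (-(z : ℂ))⁻¹ = (-((eeDiv p z : ℍ) : ℂ))⁻¹
  rw [coe_eeDiv]
  field_simp

theorem eeScale_smul_gamma0 (p : ℕ) [NeZero p] (γ : SL(2, ℤ)) (h : (p : ℤ) ∣ γ 1 0) (z : ℍ) :
    eeScale p (γ • z) = efConjSL p γ h • eeScale p z := by
  have hp : (p : ℂ) ≠ 0 := by exact_mod_cast NeZero.ne p
  have hp' : (p : ℤ) ≠ 0 := by exact_mod_cast NeZero.ne p
  obtain ⟨c, hc⟩ := h
  apply UpperHalfPlane.ext
  rw [coe_eeScale, coe_specialLinearGroup_apply, coe_specialLinearGroup_apply, coe_eeScale]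
  have e00 : (efConjSL p γ ⟨c, hc⟩) 0 0 = γ 0 0 := rfl
  have e01 : (efConjSL p γ ⟨c, hc⟩) 0 1 = (p : ℤ) * γ 0 1 := rfl
  have e10 : (efConjSL p γ ⟨c, hc⟩) 1 0 = c := by
    show γ 1 0 / (p : ℤ) = c
    rw [hc, Int.mul_ediv_cancel_left _ hp']
  have e11 : (efConjSL p γ ⟨c, hc⟩) 1 1 = γ 1 1 := rfl
  rw [e00, e01, e10, e11, hc]
  have hden := denom_ne_zero γ z
  rw [ModularGroup.denom_apply, hc] at hden
  simp only [algebraMap_int_eq, Int.coe_castRingHom, Int.cast_mul, Int.cast_natCast,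
    ofReal_mul, ofReal_intCast, ofReal_natCast] at hden ⊢
  have hden' : (c : ℂ) * ((p : ℂ) * (z : ℂ)) + (γ 1 1 : ℂ) ≠ 0 := by
    convert hden using 1
    ring
  field_simp

theorem denom_efConjSL (p : ℕ) [NeZero p] (γ : SL(2, ℤ)) (h : (p : ℤ) ∣ γ 1 0) (z : ℍ) :
    denom (efConjSL p γ h) (eeScale p z) = denom γ z := by
  have hp' : (p : ℤ) ≠ 0 := by exact_mod_cast NeZero.ne p
  obtain ⟨c, hc⟩ := h
  rw [ModularGroup.denom_apply, ModularGroup.denom_apply]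
  have e10 : (efConjSL p γ ⟨c, hc⟩) 1 0 = c := by
    show γ 1 0 / (p : ℤ) = c
    rw [hc, Int.mul_ediv_cancel_left _ hp']
  have e11 : (efConjSL p γ ⟨c, hc⟩) 1 1 = γ 1 1 := rfl
  rw [e10, e11, hc, coe_eeScale]
  push_cast
  ring

/-! ### The characters on `Γ₀(p)` -/

theorem ee_cast_div (p : ℕ) (m : ℕ) (γ : SL(2, ℤ)) (h : (p : ℤ) ∣ γ 1 0) (hp : (p : ℤ) ≠ 0) :
    ((γ 1 0 : ℤ) : ZMod m) = (p : ZMod m) * ((γ 1 0 / (p : ℤ) : ℤ) : ZMod m) := by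
  obtain ⟨c, hc⟩ := h
  rw [hc, Int.mul_ediv_cancel_left _ hp]
  push_cast
  rfl

theorem eeK2_conj : ∀ a b c d c' : ZMod 2, c = 1 * c' → eeK2 a (1 * b) c' d = eeK2 a b c d := by
  decide

theorem eeK3_conj_neg : ∀ a b c d c' : ZMod 3, c = -1 * c' →
    eeK3 a (-1 * b) c' d = -eeK3 a b c d := by
  decide

theorem eeK3_conj_one : ∀ a b c d c' : ZMod 3, c = 1 * c' →
    eeK3 a (1 * b) c' d = eeK3 a b c d := by
  decide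

/-- `κ₂(γ') = κ₂(γ)` for `γ ∈ Γ₀(p)`, `p` odd, `γ' = diag(p,1) γ diag(p,1)⁻¹` -/
theorem eeKappa2_efConjSL (p : ℕ) [NeZero p] (hp2 : p % 2 = 1) (γ : SL(2, ℤ))
    (h : (p : ℤ) ∣ γ 1 0) : eeKappa2 (efConjSL p γ h) = eeKappa2 γ := by
  have hp' : (p : ℤ) ≠ 0 := by exact_mod_cast NeZero.ne p
  have hpm : (p : ZMod 2) = 1 := by
    have := (ZMod.natCast_eq_natCast_iff' p 1 2).mpr (by simpa using hp2)
    simpa using this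
  have e00 : (efConjSL p γ h) 0 0 = γ 0 0 := rfl
  have e01 : (efConjSL p γ h) 0 1 = (p : ℤ) * γ 0 1 := rfl
  have e10 : (efConjSL p γ h) 1 0 = γ 1 0 / (p : ℤ) := rfl
  have e11 : (efConjSL p γ h) 1 1 = γ 1 1 := rfl
  rw [eeKappa2, eeKappa2, e00, e01, e10, e11]
  push_cast
  rw [hpm]
  refine eeK2_conj _ _ _ _ _ ?_
  rw [← hpm]
  exact ee_cast_div p 2 γ h hp'

/-- `κ₃(γ') = -κ₃(γ)` for `γ ∈ Γ₀(p)`, `p ≡ 2 mod 3` -/
theorem eeKappa3_efConjSL_neg (p : ℕ) [NeZero p] (hp3 : p % 3 = 2) (γ : SL(2, ℤ))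
    (h : (p : ℤ) ∣ γ 1 0) : eeKappa3 (efConjSL p γ h) = -eeKappa3 γ := by
  have hp' : (p : ℤ) ≠ 0 := by exact_mod_cast NeZero.ne p
  have hpm : (p : ZMod 3) = -1 := by
    have := (ZMod.natCast_eq_natCast_iff' p 2 3).mpr (by simpa using hp3)
    rw [this]
    decide
  have e00 : (efConjSL p γ h) 0 0 = γ 0 0 := rfl
  have e01 : (efConjSL p γ h) 0 1 = (p : ℤ) * γ 0 1 := rfl
  have e10 : (efConjSL p γ h) 1 0 = γ 1 0 / (p : ℤ) := rfl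
  have e11 : (efConjSL p γ h) 1 1 = γ 1 1 := rfl
  rw [eeKappa3, eeKappa3, e00, e01, e10, e11]
  push_cast
  rw [hpm]
  refine eeK3_conj_neg _ _ _ _ _ ?_
  rw [← hpm]
  exact ee_cast_div p 3 γ h hp'

/-- `κ₃(γ') = κ₃(γ)` for `γ ∈ Γ₀(p)`, `p ≡ 1 mod 3` -/
theorem eeKappa3_efConjSL_one (p : ℕ) [NeZero p] (hp3 : p % 3 = 1) (γ : SL(2, ℤ))
    (h : (p : ℤ) ∣ γ 1 0) : eeKappa3 (efConjSL p γ h) = eeKappa3 γ := by
  have hp' : (p : ℤ) ≠ 0 := by exact_mod_cast NeZero.ne p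
  have hpm : (p : ZMod 3) = 1 := by
    have := (ZMod.natCast_eq_natCast_iff' p 1 3).mpr (by simpa using hp3)
    simpa using this
  have e00 : (efConjSL p γ h) 0 0 = γ 0 0 := rfl
  have e01 : (efConjSL p γ h) 0 1 = (p : ℤ) * γ 0 1 := rfl
  have e10 : (efConjSL p γ h) 1 0 = γ 1 0 / (p : ℤ) := rfl
  have e11 : (efConjSL p γ h) 1 1 = γ 1 1 := rfl
  rw [eeKappa3, eeKappa3, e00, e01, e10, e11]
  push_cast
  rw [hpm]
  refine eeK3_conj_one _ _ _ _ _ ?_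
  rw [← hpm]
  exact ee_cast_div p 3 γ h hp'

theorem ee_gamma0_dvd {p : ℕ} {γ : SL(2, ℤ)} (hγ : γ ∈ Gamma0 p) : (p : ℤ) ∣ γ 1 0 := by
  rw [Gamma0_mem] at hγ
  exact (ZMod.intCast_zmod_eq_zero_iff_dvd _ _).mp hγ

theorem ee_stdAddChar_ne_zero {N : ℕ} [NeZero N] (x : ZMod N) :
    (ZMod.stdAddChar x : ℂ) ≠ 0 := by
  intro h0
  have h1 : (ZMod.stdAddChar x : ℂ) * ZMod.stdAddChar (-x) = 1 := by
    rw [← AddChar.map_add_eq_mul, add_neg_cancel, AddChar.map_zero_eq_one]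
  rw [h0, zero_mul] at h1
  exact zero_ne_one h1

/-! ### The eta quotients and their `Γ₀(p)`-invariance -/

/-- `v = (η(z) / η(p z))¹²` -/
noncomputable def eeV (p : ℕ) [NeZero p] : ℍ → ℂ :=
  fun z => η (z : ℂ) ^ 12 / η ((eeScale p z : ℍ) : ℂ) ^ 12

/-- `u₈ = (η(z) / η(p z))⁸` -/
noncomputable def eeU8 (p : ℕ) [NeZero p] : ℍ → ℂ :=
  fun z => η (z : ℂ) ^ 8 / η ((eeScale p z : ℍ) : ℂ) ^ 8

/-- `t = E₄(z)² / (η(z) η(p z))⁸` -/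
noncomputable def eeT (p : ℕ) [NeZero p] : ℍ → ℂ :=
  fun z => E₄ z ^ 2 / (η (z : ℂ) ^ 8 * η ((eeScale p z : ℍ) : ℂ) ^ 8)

theorem eeV_gamma0_invariant (p : ℕ) [NeZero p] (hp2 : p % 2 = 1) (γ : SL(2, ℤ))
    (hγ : γ ∈ Gamma0 p) (z : ℍ) : eeV p (γ • z) = eeV p z := by
  have h := ee_gamma0_dvd hγ
  have hd : denom γ z ≠ 0 := denom_ne_zero γ z
  have hχ := ee_stdAddChar_ne_zero (eeKappa2 γ)
  have h1 := eePow_twelve_smul γ z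
  have h2 := eePow_twelve_smul (efConjSL p γ h) (eeScale p z)
  rw [← eeScale_smul_gamma0, denom_efConjSL, eeKappa2_efConjSL p hp2] at h2
  show η ((γ • z : ℍ) : ℂ) ^ 12 / η ((eeScale p (γ • z) : ℍ) : ℂ) ^ 12 =
    η (z : ℂ) ^ 12 / η ((eeScale p z : ℍ) : ℂ) ^ 12
  rw [h1, h2, mul_div_mul_left _ _ (mul_ne_zero hχ (pow_ne_zero _ hd))]

theorem eeU8_gamma0_invariant (p : ℕ) [NeZero p] (hp3 : p % 3 = 1) (γ : SL(2, ℤ))
    (hγ : γ ∈ Gamma0 p) (z : ℍ) : eeU8 p (γ • z) = eeU8 p z := by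
  have h := ee_gamma0_dvd hγ
  have hd : denom γ z ≠ 0 := denom_ne_zero γ z
  have hχ := ee_stdAddChar_ne_zero (eeKappa3 γ)
  have h1 := eePow_eight_smul γ z
  have h2 := eePow_eight_smul (efConjSL p γ h) (eeScale p z)
  rw [← eeScale_smul_gamma0, denom_efConjSL, eeKappa3_efConjSL_one p hp3] at h2
  show η ((γ • z : ℍ) : ℂ) ^ 8 / η ((eeScale p (γ • z) : ℍ) : ℂ) ^ 8 =
    η (z : ℂ) ^ 8 / η ((eeScale p z : ℍ) : ℂ) ^ 8
  rw [h1, h2, mul_div_mul_left _ _ (mul_ne_zero hχ (pow_ne_zero _ hd))]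

theorem eeT_gamma0_invariant (p : ℕ) [NeZero p] (hp3 : p % 3 = 2) (γ : SL(2, ℤ))
    (hγ : γ ∈ Gamma0 p) (z : ℍ) : eeT p (γ • z) = eeT p z := by
  have h := ee_gamma0_dvd hγ
  have hd : denom γ z ≠ 0 := denom_ne_zero γ z
  have h1 := eePow_eight_smul γ z
  have h2 := eePow_eight_smul (efConjSL p γ h) (eeScale p z)
  rw [← eeScale_smul_gamma0, denom_efConjSL, eeKappa3_efConjSL_neg p hp3] at h2
  have hχ : (ZMod.stdAddChar (eeKappa3 γ) : ℂ) * ZMod.stdAddChar (-eeKappa3 γ) = 1 := by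
    rw [← AddChar.map_add_eq_mul, add_neg_cancel, AddChar.map_zero_eq_one]
  show E₄ (γ • z) ^ 2 / (η ((γ • z : ℍ) : ℂ) ^ 8 * η ((eeScale p (γ • z) : ℍ) : ℂ) ^ 8) =
    E₄ z ^ 2 / (η (z : ℂ) ^ 8 * η ((eeScale p z : ℍ) : ℂ) ^ 8)
  rw [h1, h2, E₄_smul]
  have e1 : (denom γ z ^ (4 : ℤ) * E₄ z) ^ 2 = denom γ z ^ 8 * E₄ z ^ 2 := by
    rw [mul_pow, show (denom γ z ^ (4 : ℤ)) = denom γ z ^ 4 by norm_cast, ← pow_mul]
  have e2 : (ZMod.stdAddChar (eeKappa3 γ) : ℂ) * denom γ z ^ 4 * η (z : ℂ) ^ 8 *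
      ((ZMod.stdAddChar (-eeKappa3 γ) : ℂ) * denom γ z ^ 4 * η ((eeScale p z : ℍ) : ℂ) ^ 8) =
      denom γ z ^ 8 * (η (z : ℂ) ^ 8 * η ((eeScale p z : ℍ) : ℂ) ^ 8) := by
    calc _ = ((ZMod.stdAddChar (eeKappa3 γ) : ℂ) * ZMod.stdAddChar (-eeKappa3 γ)) *
        denom γ z ^ 8 * (η (z : ℂ) ^ 8 * η ((eeScale p z : ℍ) : ℂ) ^ 8) := by ring
      _ = _ := by rw [hχ, one_mul]
  rw [e1, e2, mul_div_mul_left _ _ (pow_ne_zero _ hd)]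

/-! ### Behaviour under `S` -/

theorem ee_eta_S_pow_eight (z : ℍ) :
    η ((S • z : ℍ) : ℂ) ^ 8 = (z : ℂ) ^ 4 * η (z : ℂ) ^ 8 := by
  have h := congrFun eePow_eight_slash_S z
  rw [SL_slash_apply, denom_S, eePow_apply, eePow_apply] at h
  have hz : (z : ℂ) ^ 4 ≠ 0 := pow_ne_zero _ (ne_zero z)
  rw [← h, zpow_neg, show ((z : ℂ) ^ (4 : ℤ)) = (z : ℂ) ^ 4 by norm_cast, mul_comm,
    mul_assoc, inv_mul_cancel₀ hz, mul_one]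

theorem ee_eta_S_pow_twelve (z : ℍ) :
    η ((S • z : ℍ) : ℂ) ^ 12 = -((z : ℂ) ^ 6 * η (z : ℂ) ^ 12) := by
  have h := congrFun eePow_twelve_slash_S z
  rw [SL_slash_apply, denom_S, eePow_apply, Pi.neg_apply, eePow_apply] at h
  have hz : (z : ℂ) ^ 6 ≠ 0 := pow_ne_zero _ (ne_zero z)
  rw [zpow_neg, show ((z : ℂ) ^ (6 : ℤ)) = (z : ℂ) ^ 6 by norm_cast] at h
  have h' : η ((S • z : ℍ) : ℂ) ^ 12 = -η (z : ℂ) ^ 12 * (z : ℂ) ^ 6 := by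
    rw [← h, mul_assoc, inv_mul_cancel₀ hz, mul_one]
  rw [h']
  ring

theorem eeV_S (p : ℕ) [NeZero p] (z : ℍ) :
    eeV p (S • z) = (p : ℂ) ^ 6 * (η (z : ℂ) ^ 12 / η ((eeDiv p z : ℍ) : ℂ) ^ 12) := by
  have hp : (p : ℂ) ≠ 0 := by exact_mod_cast NeZero.ne p
  have hz : (z : ℂ) ≠ 0 := ne_zero z
  have hη : η ((eeDiv p z : ℍ) : ℂ) ≠ 0 := eta_ne_zero (eeDiv p z).2
  show η ((S • z : ℍ) : ℂ) ^ 12 / η ((eeScale p (S • z) : ℍ) : ℂ) ^ 12 = _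
  rw [eeScale_smul_S, ee_eta_S_pow_twelve, ee_eta_S_pow_twelve, coe_eeDiv]
  field_simp

theorem eeU8_S (p : ℕ) [NeZero p] (z : ℍ) :
    eeU8 p (S • z) = (p : ℂ) ^ 4 * (η (z : ℂ) ^ 8 / η ((eeDiv p z : ℍ) : ℂ) ^ 8) := by
  have hp : (p : ℂ) ≠ 0 := by exact_mod_cast NeZero.ne p
  have hz : (z : ℂ) ≠ 0 := ne_zero z
  have hη : η ((eeDiv p z : ℍ) : ℂ) ≠ 0 := eta_ne_zero (eeDiv p z).2
  show η ((S • z : ℍ) : ℂ) ^ 8 / η ((eeScale p (S • z) : ℍ) : ℂ) ^ 8 = _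
  rw [eeScale_smul_S, ee_eta_S_pow_eight, ee_eta_S_pow_eight, coe_eeDiv]
  field_simp

theorem eeT_S (p : ℕ) [NeZero p] (z : ℍ) :
    eeT p (S • z) =
      (p : ℂ) ^ 4 * (E₄ z ^ 2 / (η (z : ℂ) ^ 8 * η ((eeDiv p z : ℍ) : ℂ) ^ 8)) := by
  have hp : (p : ℂ) ≠ 0 := by exact_mod_cast NeZero.ne p
  have hz : (z : ℂ) ≠ 0 := ne_zero z
  have hη : η ((eeDiv p z : ℍ) : ℂ) ≠ 0 := eta_ne_zero (eeDiv p z).2
  have hη' : η (z : ℂ) ≠ 0 := eta_ne_zero z.2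
  show E₄ (S • z) ^ 2 / (η ((S • z : ℍ) : ℂ) ^ 8 * η ((eeScale p (S • z) : ℍ) : ℂ) ^ 8) = _
  rw [eeScale_smul_S, ee_eta_S_pow_eight, ee_eta_S_pow_eight, coe_eeDiv, E₄_smul, denom_S,
    show ((z : ℂ) ^ (4 : ℤ)) = (z : ℂ) ^ 4 by norm_cast]
  field_simp

end Fermat.Agent.Eis
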