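import Fermat.Agent.Lib.Eis.Eta.EtaQuotExp

/-!
# P11 (E): the eta quotients as elements of `ℚ(X₀(p))`

For `p` prime: `v = (η(z)/η(pz))¹²` (`p` odd), `u₈ = (η(z)/η(pz))⁸` (`p ≡ 1 mod 3`),
`t = E₄²/(η(z)η(pz))⁸` (`p ≡ 2 mod 3`) have `q`-expansions in `modularFunctionFieldFull p`, integral
over `ℤ[j]`, and satisfy `v² = u`, `u₈³ = u`, `t³ = j² u` with `u = Δ(q)/Δ(q^p)`.
-/

set_option autoImplicit false

open HahnSeries ModularCurve ModularForm Complex ModularGroup CongruenceSubgroup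
open Fermat.Agent.ES Fermat.Agent.S24Lib Fermat.Agent.Igusa
open UpperHalfPlane hiding I
open scoped Real MatrixGroups ModularForm Manifold

namespace Fermat.Agent.Eis

/-! ### Formal identities -/

section Identities

variable (K : Type*) [CommRing K] (p : ℕ) [NeZero p]

theorem unitFinLS_eq_eeEtaLS :
    unitFinLS K p = HahnSeries.single (1 - (p : ℤ)) (1 : K) *
      (eeEtaLS K * qExpand K p (eeEtaInvLS K)) ^ 24 := by
  rw [unitFinLS, deltaLS_eq_eeEtaLS, deltaInvLS_eq_eeEtaInvLS, map_mul, map_pow, qExpand_single,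
    mul_pow]
  have : HahnSeries.single (1 - (p : ℤ)) (1 : K) =
      HahnSeries.single (1 : ℤ) (1 : K) * HahnSeries.single ((p : ℤ) * -1) (1 : K) := by
    rw [HahnSeries.single_mul_single, one_mul, show (1 : ℤ) + (p : ℤ) * -1 = 1 - (p : ℤ) by ring]
  rw [this]
  ring

theorem eeVLS_sq {k : ℕ} (hk : p = 2 * k + 1) : eeVLS K p k ^ 2 = unitFinLS K p := by
  have he : (2 : ℕ) • (-(k : ℤ)) = 1 - (p : ℤ) := by
    rw [hk, nsmul_eq_mul]
    push_cast
    ring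
  rw [unitFinLS_eq_eeEtaLS, eeVLS, mul_pow, ← pow_mul, HahnSeries.single_pow, one_pow, he]

theorem eeU8LS_cube {k : ℕ} (hk : p = 3 * k + 1) : eeU8LS K p k ^ 3 = unitFinLS K p := by
  have he : (3 : ℕ) • (-(k : ℤ)) = 1 - (p : ℤ) := by
    rw [hk, nsmul_eq_mul]
    push_cast
    ring
  rw [unitFinLS_eq_eeEtaLS, eeU8LS, mul_pow, ← pow_mul, HahnSeries.single_pow, one_pow, he]

theorem eeTLS_cube {k : ℕ} (hk : p + 1 = 3 * k) :
    eeTLS K p k ^ 3 = jqModC K ^ 2 * unitFinLS K p := by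
  have h1 : jqModC K ^ 2 * unitFinLS K p =
      eeE4LS K ^ 6 * (deltaInvLS K * qExpand K p (deltaInvLS K)) := by
    rw [jqModC_eq_eeE4LS, unitFinLS]
    calc (eeE4LS K ^ 3 * deltaInvLS K) ^ 2 * (deltaLS K * qExpand K p (deltaInvLS K))
        = eeE4LS K ^ 6 * (deltaInvLS K * (deltaInvLS K * deltaLS K) *
          qExpand K p (deltaInvLS K)) := by ring
      _ = _ := by rw [deltaInvLS_mul_deltaLS, mul_one]
  rw [h1, deltaInvLS_eq_eeEtaInvLS, map_mul, map_pow, qExpand_single, eeTLS, mul_pow, mul_pow,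
    ← pow_mul, ← pow_mul, HahnSeries.single_pow, one_pow, mul_pow]
  have he : (3 : ℕ) • (-(k : ℤ)) = -1 + (p : ℤ) * -1 := by
    have : ((p : ℤ) + 1) = 3 * k := by exact_mod_cast hk
    rw [nsmul_eq_mul]
    push_cast
    linarith
  have : HahnSeries.single ((3 : ℕ) • (-(k : ℤ))) (1 : K) =
      HahnSeries.single (-1 : ℤ) (1 : K) * HahnSeries.single ((p : ℤ) * -1) (1 : K) := by
    rw [HahnSeries.single_mul_single, one_mul, he]
  rw [this]
  ring

end Identities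

/-! ### Membership in `ℚ(X₀(p))` and integrality over `ℤ[j]` -/

section Field

variable (p : ℕ) [Fact p.Prime] [NeZero p]

/-- `v = (η(z)/η(pz))¹² ∈ ℚ(X₀(p))` for `p = 2k + 1` -/
theorem eeVLS_mem_full {k : ℕ} (hk : p = 2 * k + 1) :
    eeVLS ℚ p k ∈ modularFunctionFieldFull p := by
  have hp2 : p % 2 = 1 := by omega
  have h1 := ee_qLaurent_eeV p hk
  have h2 := ee_qLaurent_eeV_S p hk
  exact ef_mem_full_of_gamma0_invariant_one p (eeV p) (eeV_gamma0_invariant p hp2)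
    (eeVLS ℚ p k) (eeVSLS ℚ p k) h1.1 (by rw [h1.2, lsMapHom_eeVLS]) h2.1
    (by rw [h2.2, lsMapHom_eeVSLS])

/-- `v` is integral over `ℤ[j]` -/
theorem eeVLS_isIntegralElem_int {k : ℕ} (hk : p = 2 * k + 1) :
    (evalJ ℤ).IsIntegralElem (eeVLS ℤ p k) := by
  have hp2 : p % 2 = 1 := by omega
  have h1 := ee_qLaurent_eeV p hk
  have h2 := ee_qLaurent_eeV_S p hk
  exact ef_isIntegralElem_of_gamma0_invariant_one (Int.castRingHom ℂ) Int.cast_injective p
    (eeV p) (eeV_gamma0_invariant p hp2) (eeVLS ℤ p k) (eeVSLS ℤ p k) h1.1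
    (by rw [h1.2, lsMapHom_eeVLS]) h2.1 (by rw [h2.2, lsMapHom_eeVSLS])

/-- `v` is integral over `K[j]`, for every commutative ring `K` -/
theorem eeVLS_isIntegralElem (K : Type*) [CommRing K] {k : ℕ} (hk : p = 2 * k + 1) :
    (evalJ K).IsIntegralElem (eeVLS K p k) := by
  have h := ef_isIntegralElem_lsMapHom (Int.castRingHom K) (eeVLS_isIntegralElem_int p hk)
  rwa [lsMapHom_eeVLS] at h

/-- `u₈ = (η(z)/η(pz))⁸ ∈ ℚ(X₀(p))` for `p = 3k + 1` -/
theorem eeU8LS_mem_full {k : ℕ} (hk : p = 3 * k + 1) :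
    eeU8LS ℚ p k ∈ modularFunctionFieldFull p := by
  have hp3 : p % 3 = 1 := by omega
  have h1 := ee_qLaurent_eeU8 p hk
  have h2 := ee_qLaurent_eeU8_S p hk
  exact ef_mem_full_of_gamma0_invariant_one p (eeU8 p) (eeU8_gamma0_invariant p hp3)
    (eeU8LS ℚ p k) (eeU8SLS ℚ p k) h1.1 (by rw [h1.2, lsMapHom_eeU8LS]) h2.1
    (by rw [h2.2, lsMapHom_eeU8SLS])

theorem eeU8LS_isIntegralElem_int {k : ℕ} (hk : p = 3 * k + 1) :
    (evalJ ℤ).IsIntegralElem (eeU8LS ℤ p k) := by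
  have hp3 : p % 3 = 1 := by omega
  have h1 := ee_qLaurent_eeU8 p hk
  have h2 := ee_qLaurent_eeU8_S p hk
  exact ef_isIntegralElem_of_gamma0_invariant_one (Int.castRingHom ℂ) Int.cast_injective p
    (eeU8 p) (eeU8_gamma0_invariant p hp3) (eeU8LS ℤ p k) (eeU8SLS ℤ p k) h1.1
    (by rw [h1.2, lsMapHom_eeU8LS]) h2.1 (by rw [h2.2, lsMapHom_eeU8SLS])

theorem eeU8LS_isIntegralElem (K : Type*) [CommRing K] {k : ℕ} (hk : p = 3 * k + 1) :
    (evalJ K).IsIntegralElem (eeU8LS K p k) := by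
  have h := ef_isIntegralElem_lsMapHom (Int.castRingHom K) (eeU8LS_isIntegralElem_int p hk)
  rwa [lsMapHom_eeU8LS] at h

/-- `t = E₄²/(η(z)η(pz))⁸ ∈ ℚ(X₀(p))` for `p + 1 = 3k` -/
theorem eeTLS_mem_full {k : ℕ} (hk : p + 1 = 3 * k) :
    eeTLS ℚ p k ∈ modularFunctionFieldFull p := by
  have hp3 : p % 3 = 2 := by omega
  have h1 := ee_qLaurent_eeT p hk
  have h2 := ee_qLaurent_eeT_S p hk
  exact ef_mem_full_of_gamma0_invariant_one p (eeT p) (eeT_gamma0_invariant p hp3)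
    (eeTLS ℚ p k) (eeTSLS ℚ p k) h1.1 (by rw [h1.2, lsMapHom_eeTLS]) h2.1
    (by rw [h2.2, lsMapHom_eeTSLS])

theorem eeTLS_isIntegralElem_int {k : ℕ} (hk : p + 1 = 3 * k) :
    (evalJ ℤ).IsIntegralElem (eeTLS ℤ p k) := by
  have hp3 : p % 3 = 2 := by omega
  have h1 := ee_qLaurent_eeT p hk
  have h2 := ee_qLaurent_eeT_S p hk
  exact ef_isIntegralElem_of_gamma0_invariant_one (Int.castRingHom ℂ) Int.cast_injective p
    (eeT p) (eeT_gamma0_invariant p hp3) (eeTLS ℤ p k) (eeTSLS ℤ p k) h1.1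
    (by rw [h1.2, lsMapHom_eeTLS]) h2.1 (by rw [h2.2, lsMapHom_eeTSLS])

theorem eeTLS_isIntegralElem (K : Type*) [CommRing K] {k : ℕ} (hk : p + 1 = 3 * k) :
    (evalJ K).IsIntegralElem (eeTLS K p k) := by
  have h := ef_isIntegralElem_lsMapHom (Int.castRingHom K) (eeTLS_isIntegralElem_int p hk)
  rwa [lsMapHom_eeTLS] at h

end Field

end Fermat.Agent.Eis
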